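import Fermat.Agent.F4.Loc.NormIdx.Main

/-!
# F4/Loc/NormIdx: the norm group is proper modulo `V n`, without Hensel (helper91)

`NILattice.exists_not_mem_norm_mul_V`: for a Galois extension `L/K` of prime degree with an
`NIBase` (no Hensel's lemma: e.g. a number field with a non-split prime), there is `y ∈ Kˣ` which
is not in `N(Lˣ) · V n`.

Proof: the Herbrand quotient of `Lˣ / V n` is `p` (it contains `π^ℤ` with finite index), and
`(Lˣ / V n)^G = Kˣ V n / V n` by Hilbert 90 inside `V n` (V2).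
-/

set_option autoImplicit false
set_option linter.unusedSectionVars false

open Finset
open scoped Classical

namespace Fermat.Agent.F4Loc

variable {K L : Type} [Field K] [Field L] [Algebra K L] [FiniteDimensional K L] [IsGalois K L]

namespace NILattice

variable {S : NIBase K L} (Λ : NILattice S)

/-- a power of `π` in `V n` is trivial. -/
theorem eq_zero_of_zpow_mem_V {n : ℕ} {j : ℤ} (h : S.πu ^ j ∈ Λ.V n) : j = 0 := by
  rw [mem_V] at h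
  have e : ((S.πu ^ j : Lˣ) : L) = algebraMap K L (S.π ^ j) := by
    rw [Units.val_zpow_eq_zpow_val, NIBase.coe_πu, map_zpow₀]
  rw [e] at h
  have h1 := S.I_anti (Nat.le_add_left 1 n) (Λ.mem_I_of_P_algebraMap h)
  have e2 : 1 + (S.π ^ j - 1) = S.π ^ j := by ring
  apply S.zpow_eq_zero_of_unit
  · rw [← e2]
    exact add_mem (one_mem _) (S.I_le_OK h1)
  · have := S.inv_one_add_mem h1
    rwa [e2] at this

/-- the quotient `Lˣ / V n`. -/
abbrev Q (n : ℕ) : Type := Lˣ ⧸ Λ.V n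

/-- the twist on `Lˣ / V n`. -/
noncomputable def twistQ (n : ℕ) (σ : L ≃ₐ[K] L) : Λ.Q n →* Λ.Q n :=
  QuotientGroup.map (Λ.V n) (Λ.V n) (twistEndo σ) (fun _ hv => Λ.twistEndo_mem_V σ hv)

/-- the norm on `Lˣ / V n`. -/
noncomputable def normQ (n : ℕ) : Λ.Q n →* Λ.Q n :=
  QuotientGroup.map (Λ.V n) (Λ.V n) (normEndo K L) (fun _ hv => Λ.normEndo_mem_V hv)

theorem twistQ_mk (n : ℕ) (σ : L ≃ₐ[K] L) (x : Lˣ) :
    Λ.twistQ n σ (QuotientGroup.mk x) = QuotientGroup.mk (twistEndo σ x) := rfl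

theorem normQ_mk (n : ℕ) (x : Lˣ) :
    Λ.normQ n (QuotientGroup.mk x) = QuotientGroup.mk (normEndo K L x) := rfl

theorem twistQ_normQ (n : ℕ) (σ : L ≃ₐ[K] L) (x : Λ.Q n) : Λ.twistQ n σ (Λ.normQ n x) = 1 := by
  induction x using QuotientGroup.induction_on with
  | H x => rw [normQ_mk, twistQ_mk, twistEndo_normEndo]; rfl

theorem normQ_twistQ (n : ℕ) (σ : L ≃ₐ[K] L) (x : Λ.Q n) : Λ.normQ n (Λ.twistQ n σ x) = 1 := by
  induction x using QuotientGroup.induction_on with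
  | H x => rw [twistQ_mk, normQ_mk, normEndo_twistEndo]; rfl

/-- the image of `π` in `Lˣ / V n`. -/
noncomputable def πQ (n : ℕ) : Λ.Q n := QuotientGroup.mk S.πu

theorem twistQ_πQ (n : ℕ) (σ : L ≃ₐ[K] L) : Λ.twistQ n σ (Λ.πQ n) = 1 := by
  rw [πQ, twistQ_mk, twistEndo_πu]; rfl

theorem normEndo_πu : normEndo K L S.πu = S.πu ^ Module.finrank K L := by
  ext
  rw [coe_normEndo, NIBase.coe_πu, Algebra.norm_algebraMap, map_pow, Units.val_pow_eq_pow_val,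
    NIBase.coe_πu]

theorem normEndo_πu_zpow (k : ℤ) :
    normEndo K L (S.πu ^ k) = S.πu ^ ((Module.finrank K L : ℤ) * k) := by
  rw [map_zpow, normEndo_πu, zpow_mul, zpow_natCast]

/-- `B̄ = π^ℤ` in `Lˣ / V n`. -/
noncomputable def BQ (n : ℕ) : Subgroup (Λ.Q n) :=
  (Subgroup.zpowers S.πu).map (QuotientGroup.mk' (Λ.V n))

theorem mem_BQ {n : ℕ} {x : Λ.Q n} : x ∈ Λ.BQ n ↔ ∃ k : ℤ, x = QuotientGroup.mk (S.πu ^ k) := by
  rw [BQ, Subgroup.mem_map]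
  constructor
  · rintro ⟨u, hu, rfl⟩
    obtain ⟨k, rfl⟩ := Subgroup.mem_zpowers_iff.mp hu
    exact ⟨k, rfl⟩
  · rintro ⟨k, rfl⟩
    exact ⟨S.πu ^ k, Subgroup.zpow_mem_zpowers _ _, rfl⟩

theorem mk_eq_one_iff {n : ℕ} {x : Lˣ} : (QuotientGroup.mk x : Λ.Q n) = 1 ↔ x ∈ Λ.V n :=
  QuotientGroup.eq_one_iff x

theorem map_twistQ_BQ_le (n : ℕ) (σ : L ≃ₐ[K] L) : (Λ.BQ n).map (Λ.twistQ n σ) ≤ Λ.BQ n := by
  rintro _ ⟨x, hx, rfl⟩
  obtain ⟨k, rfl⟩ := Λ.mem_BQ.mp hx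
  rw [twistQ_mk, map_zpow, twistEndo_πu, one_zpow]
  exact Λ.mem_BQ.mpr ⟨0, by rw [zpow_zero]⟩

theorem map_normQ_BQ_le (n : ℕ) : (Λ.BQ n).map (Λ.normQ n) ≤ Λ.BQ n := by
  rintro _ ⟨x, hx, rfl⟩
  obtain ⟨k, rfl⟩ := Λ.mem_BQ.mp hx
  rw [normQ_mk, normEndo_πu_zpow]
  exact Λ.mem_BQ.mpr ⟨_, rfl⟩

theorem index_BQ_ne_zero (n : ℕ) : (Λ.BQ n).index ≠ 0 := by
  have h1 : (Λ.BQ n).comap (QuotientGroup.mk' (Λ.V n)) = Λ.V n ⊔ Subgroup.zpowers S.πu := by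
    rw [BQ, Subgroup.comap_map_eq, QuotientGroup.ker_mk', sup_comm]
  rw [← Subgroup.index_comap_of_surjective (Λ.BQ n) (QuotientGroup.mk'_surjective (Λ.V n)), h1]
  exact Λ.index_ne_zero n

theorem mhq_normQ_twistQ_BQ (n : ℕ) (σ : L ≃ₐ[K] L) :
    mhq (A := Λ.Q n) (Λ.normQ n) (Λ.twistQ n σ) (Λ.BQ n) = 1 := by
  rw [mhq_def, Subgroup.relIndex_eq_one]
  rintro x ⟨hxB, hxN⟩
  obtain ⟨k, rfl⟩ := Λ.mem_BQ.mp hxB
  have h1 : Λ.normQ n (QuotientGroup.mk (S.πu ^ k)) = 1 := MonoidHom.mem_ker.mp hxN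
  rw [normQ_mk, normEndo_πu_zpow, mk_eq_one_iff] at h1
  have h2 := Λ.eq_zero_of_zpow_mem_V h1
  have hp0 : (Module.finrank K L : ℤ) ≠ 0 := by
    exact_mod_cast (Module.finrank_pos (R := K) (M := L)).ne'
  have hk : k = 0 := by
    rcases mul_eq_zero.mp h2 with h | h
    · exact absurd h hp0
    · exact h
  rw [hk, zpow_zero]
  exact Subgroup.one_mem _

theorem mhq_twistQ_normQ_BQ (hp : (Module.finrank K L).Prime) (n : ℕ) (σ : L ≃ₐ[K] L) :
    mhq (A := Λ.Q n) (Λ.twistQ n σ) (Λ.normQ n) (Λ.BQ n) = Module.finrank K L := by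
  rw [mhq_def]
  have hπB : Λ.πQ n ∈ Λ.BQ n := Λ.mem_BQ.mpr ⟨1, by rw [zpow_one]; rfl⟩
  refine relIndex_eq_prime (G := Λ.Q n) hp (Λ.πQ n) ⟨hπB, ?_⟩ ?_ ?_ ?_
  · exact MonoidHom.mem_ker.mpr (Λ.twistQ_πQ n σ)
  · rintro ⟨x, hx, hxπ⟩
    obtain ⟨k, rfl⟩ := Λ.mem_BQ.mp hx
    rw [normQ_mk, normEndo_πu_zpow, πQ, QuotientGroup.eq] at hxπ
    have e : (S.πu ^ ((Module.finrank K L : ℤ) * k))⁻¹ * S.πu =
        S.πu ^ (1 - (Module.finrank K L : ℤ) * k) := by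
      rw [zpow_sub, zpow_one, mul_comm]
    rw [e] at hxπ
    have h4 := Λ.eq_zero_of_zpow_mem_V hxπ
    have h5 : (Module.finrank K L : ℤ) * k = 1 := by linarith
    have h6 := Int.eq_one_or_neg_one_of_mul_eq_one h5
    have h7 : 2 ≤ Module.finrank K L := hp.two_le
    omega
  · refine ⟨Λ.πQ n, hπB, ?_⟩
    rw [πQ, normQ_mk, normEndo_πu]
    exact QuotientGroup.mk_pow (Λ.V n) S.πu (Module.finrank K L)
  · rintro x ⟨hxB, -⟩
    obtain ⟨k, rfl⟩ := Λ.mem_BQ.mp hxB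
    refine Subgroup.mem_sup_right ?_
    rw [Subgroup.mem_zpowers_iff]
    exact ⟨k, (QuotientGroup.mk_zpow (Λ.V n) S.πu k).symm⟩

/-- The Herbrand quotient of `Lˣ / V n` is a nonzero multiple of `p`; in particular
`Ĥ⁰(G, Lˣ / V n) ≠ 1`. -/
theorem mhq_twistQ_normQ_top_ne_one (hp : (Module.finrank K L).Prime) (n : ℕ)
    (σ : L ≃ₐ[K] L) : mhq (A := Λ.Q n) (Λ.twistQ n σ) (Λ.normQ n) ⊤ ≠ 1 := by
  have key := mhq_top_mul_mhq (A := Λ.Q n) (Λ.twistQ n σ) (Λ.normQ n) (Λ.twistQ_normQ n σ)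
    (Λ.normQ_twistQ n σ) (Λ.map_twistQ_BQ_le n σ) (Λ.map_normQ_BQ_le n) (Λ.index_BQ_ne_zero n)
  rw [Λ.mhq_normQ_twistQ_BQ n σ, Λ.mhq_twistQ_normQ_BQ hp n σ, mul_one] at key
  have hne : mhq (A := Λ.Q n) (Λ.normQ n) (Λ.twistQ n σ) ⊤ ≠ 0 := by
    rw [mhq_ne_zero_iff_of_relIndex_ne_zero (A := Λ.Q n) (Λ.normQ n) (Λ.twistQ n σ) (Λ.normQ_twistQ n σ)
      (le_top : Λ.BQ n ≤ ⊤) (Λ.map_twistQ_BQ_le n σ) le_top
      (by rw [Subgroup.relIndex_top_right]; exact Λ.index_BQ_ne_zero n),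
      Λ.mhq_normQ_twistQ_BQ n σ]
    exact one_ne_zero
  intro h1
  rw [h1] at key
  have h7 : 2 ≤ Module.finrank K L := hp.two_le
  have hpos : 1 ≤ mhq (A := Λ.Q n) (Λ.normQ n) (Λ.twistQ n σ) ⊤ := Nat.one_le_iff_ne_zero.mpr hne
  nlinarith

/-- **Properness of the norm group modulo `V n`, without Hensel**: some `y ∈ Kˣ` is not in
`N(Lˣ) · V n`. -/
theorem exists_not_mem_norm_mul_V (hp : (Module.finrank K L).Prime) (n : ℕ) :
    ∃ y : Kˣ, ∀ z : Lˣ, unitsIncl K L y / normEndo K L z ∉ Λ.V n := by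
  have : Fact (Module.finrank K L).Prime := ⟨hp⟩
  have hcard : Nat.card (L ≃ₐ[K] L) = Module.finrank K L := IsGalois.card_aut_eq_finrank K L
  have hcyc : IsCyclic (L ≃ₐ[K] L) := isCyclic_of_prime_card hcard
  obtain ⟨σ, hσ⟩ := hcyc.exists_generator
  have h1 := Λ.mhq_twistQ_normQ_top_ne_one hp n σ
  rw [mhq_top, Ne, Subgroup.relIndex_eq_one, SetLike.not_le_iff_exists] at h1
  obtain ⟨xq, hx1, hx2⟩ := h1
  induction xq using QuotientGroup.induction_on with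
  | H x =>
    have hxV : twistEndo σ x ∈ Λ.V n := by
      have := MonoidHom.mem_ker.mp hx1
      rw [twistQ_mk] at this
      exact (QuotientGroup.eq_one_iff _).mp this
    have hN : Algebra.norm K ((twistEndo σ x : Lˣ) : L) = 1 := by
      have := congrArg Units.val (normEndo_twistEndo σ x)
      rw [coe_normEndo, Units.val_one] at this
      exact (algebraMap K L).injective (by rw [this, map_one])
    obtain ⟨c, hc, hσc⟩ := Λ.exists_twist_eq σ hσ n _ hxV hN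
    have hc0 : c ≠ 0 := Λ.ne_zero_of_P (Nat.le_add_left 1 n) hc
    set cu : Lˣ := Units.mk0 c hc0 with hcu
    have hcV : cu ∈ Λ.V n := hc
    have htw : twistEndo σ cu = twistEndo σ x := by
      ext
      rw [coe_twistEndo, hcu, Units.val_mk0, hσc]
      field_simp
    have hker : x / cu ∈ (twistEndo σ).ker := by
      rw [MonoidHom.mem_ker, map_div, htw, div_self']
    rw [ker_twistEndo hσ] at hker
    obtain ⟨y, -, hy⟩ := hker
    refine ⟨y, fun z hz => hx2 ⟨QuotientGroup.mk z, ?_⟩⟩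
    rw [normQ_mk]
    rw [QuotientGroup.eq]
    -- `(g z)⁻¹ * x = (ι y / g z) * cu`
    have e : (normEndo K L z)⁻¹ * x = (unitsIncl K L y / normEndo K L z) * cu := by
      rw [hy, div_div, mul_comm cu, ← div_div, div_mul_cancel, div_eq_mul_inv, mul_comm]
    rw [e]
    exact Subgroup.mul_mem _ hz hcV

end NILattice

end Fermat.Agent.F4Loc
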