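import Fermat.Agent.F4.Loc.NormIdx.V

/-!
# F4/Loc/NormIdx: `V m · π^ℤ` has finite index in `Lˣ` (helper91)
-/

set_option autoImplicit false
set_option linter.unusedSectionVars false

open Finset
open scoped Classical Pointwise

namespace Fermat.Agent.F4Loc

/-- Choosing representatives: for a finite index set and a family of predicates, there is a
finite set containing a witness of every satisfiable predicate. -/
theorem exists_finset_reps {G ι : Type*} [One G] (s : Finset ι) (Q : ι → G → Prop) :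
    ∃ F : Finset G, ∀ i ∈ s, ∀ x, Q i x → ∃ y ∈ F, Q i y := by
  classical
  refine ⟨s.image (fun i => if h : ∃ y, Q i y then h.choose else 1), fun i hi x hx => ?_⟩
  have h : ∃ y, Q i y := ⟨x, hx⟩
  refine ⟨h.choose, ?_, h.choose_spec⟩
  rw [Finset.mem_image]
  exact ⟨i, hi, by rw [dif_pos h]⟩

/-- A subgroup with a finite set of coset representatives has finite index. -/
theorem index_ne_zero_of_reps {G : Type*} [Group G] (H : Subgroup G) (F : Finset G)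
    (h : ∀ x : G, ∃ t ∈ F, t⁻¹ * x ∈ H) : H.index ≠ 0 := by
  have hcov : ⋃ i ∈ F, (id i : G) • (H : Set G) = Set.univ := by
    rw [Set.eq_univ_iff_forall]
    intro x
    obtain ⟨t, ht, hx⟩ := h x
    rw [Set.mem_iUnion₂]
    exact ⟨t, ht, by rw [id, mem_leftCoset_iff]; exact hx⟩
  have := Subgroup.finiteIndex_of_leftCoset_cover_const hcov
  exact Subgroup.FiniteIndex.index_ne_zero

variable {K L : Type*} [Field K] [Field L] [Algebra K L]

namespace NIBase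

variable (S : NIBase K L)

/-- `π` as a unit of `L`. -/
noncomputable def πu : Lˣ := Units.mk0 (algebraMap K L S.π) S.πL_ne_zero

@[simp] theorem coe_πu : (S.πu : L) = algebraMap K L S.π := rfl

/-- finitely many representatives of `O_K / π^n O_K`. -/
theorem exists_reps_I (n : ℕ) : ∃ T : Finset K, ∀ a ∈ S.OK, ∃ s ∈ T, a - s ∈ S.I n := by
  induction n with
  | zero =>
    refine ⟨{0}, fun a ha => ⟨0, Finset.mem_singleton_self 0, ?_⟩⟩
    rw [sub_zero, S.mem_I_zero]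
    exact ha
  | succ n ih =>
    obtain ⟨T, hT⟩ := ih
    obtain ⟨T₁, hT₁⟩ := S.fin
    refine ⟨Finset.image₂ (fun s s' => s + S.π ^ n * s') T T₁, fun a ha => ?_⟩
    obtain ⟨s, hs, has⟩ := hT a ha
    obtain ⟨a', ha', e⟩ := S.mem_I_iff_exists.mp has
    obtain ⟨s', hs', h'⟩ := hT₁ a' ha'
    refine ⟨s + S.π ^ n * s', Finset.mem_image₂_of_mem hs hs', ?_⟩
    have e2 : a - (s + S.π ^ n * s') = S.π ^ (n + 1) * ((a' - s') / S.π) := by
      have hπ := S.π_ne_zero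
      rw [pow_succ]
      field_simp
      linear_combination e
    rw [e2]
    exact S.pow_mul_mem_I h'

end NIBase

variable [FiniteDimensional K L] [IsGalois K L]

namespace NILattice

variable {S : NIBase K L} (Λ : NILattice S)

/-- finitely many representatives of `M / π^n M`. -/
theorem exists_reps_Mn (n : ℕ) : ∃ R : Finset L, ∀ x ∈ Λ.Mn 0, ∃ r ∈ R, x - r ∈ Λ.Mn n := by
  obtain ⟨T, hT⟩ := S.exists_reps_I n
  refine ⟨(Fintype.piFinset fun _ : L ≃ₐ[K] L => T).image (fun s => ∑ g, s g • Λ.b g),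
    fun x hx => ?_⟩
  have h1 : ∀ g, ∃ s ∈ T, Λ.b.repr x g - s ∈ S.I n := fun g => hT _ (S.mem_I_zero.mp (hx g))
  choose s hs hs' using h1
  refine ⟨∑ g, s g • Λ.b g, ?_, ?_⟩
  · rw [Finset.mem_image]
    exact ⟨s, by rw [Fintype.mem_piFinset]; exact hs, rfl⟩
  · intro g
    rw [map_sub, Finsupp.sub_apply, Module.Basis.repr_sum_self]
    exact hs' g

/-- finitely many representatives of `U_L / V m`. -/
theorem exists_reps_units (m : ℕ) : ∃ F : Finset Lˣ, ∀ w : Lˣ, (w : L) ∈ S.O →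
    ((w⁻¹ : Lˣ) : L) ∈ S.O → ∃ u ∈ F, u⁻¹ * w ∈ Λ.V m := by
  obtain ⟨c, hc⟩ := Λ.exists_pow_smul_mem_of_mem_O
  set n := (m + 1) + (c + c) with hn
  obtain ⟨R, hR⟩ := Λ.exists_reps_Mn n
  obtain ⟨F, hF⟩ := exists_finset_reps (G := Lˣ) R
    (fun r w => (w : L) ∈ S.O ∧ ((w⁻¹ : Lˣ) : L) ∈ S.O ∧ S.π ^ c • (w : L) - r ∈ Λ.Mn n)
  refine ⟨F, fun w hw hw' => ?_⟩
  obtain ⟨r, hr, hwr⟩ := hR _ (hc _ hw)
  obtain ⟨y, hy, hy1, hy2, hy3⟩ := hF r hr w ⟨hw, hw', hwr⟩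
  refine ⟨y, hy, ?_⟩
  rw [mem_V, P_def]
  have h1 : S.π ^ c • ((w : L) - (y : L)) ∈ Λ.Mn n := by
    have := sub_mem hwr hy3
    rwa [sub_sub_sub_cancel_right, ← smul_sub] at this
  have h2 := Λ.mul_mem_Mn (hc _ hy2) h1
  rw [zero_add] at h2
  have e : S.π ^ c • (((y⁻¹ : Lˣ) : L)) * S.π ^ c • ((w : L) - (y : L)) =
      S.π ^ (c + c) • (((y⁻¹ * w : Lˣ) : L) - 1) := by
    rw [smul_mul_smul_comm, ← pow_add, Units.val_mul, mul_sub, Units.inv_mul]
  rw [e, hn] at h2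
  exact Λ.pow_smul_mem_Mn_iff.mp h2

end NILattice

namespace NIBase

theorem norm_πu_zpow (S : NIBase K L) (q : ℤ) :
    Algebra.norm K ((S.πu ^ q : Lˣ) : L) = (S.π ^ Module.finrank K L) ^ q := by
  have h := map_zpow (Units.map (Algebra.norm K : L →* K)) S.πu q
  have h2 := congrArg Units.val h
  simp only [Units.coe_map, Units.val_zpow_eq_zpow_val] at h2
  rw [Units.val_zpow_eq_zpow_val]
  rw [h2, NIBase.coe_πu, Algebra.norm_algebraMap]

/-- finitely many representatives of `Lˣ / (U_L π^ℤ)`. -/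
theorem exists_reps_norm (S : NIBase K L) : ∃ F : Finset Lˣ, ∀ x : Lˣ, ∃ y ∈ F,
    ∃ (q : ℤ) (w : Lˣ),
    (w : L) ∈ S.O ∧ ((w⁻¹ : Lˣ) : L) ∈ S.O ∧ y⁻¹ * x = w * S.πu ^ q := by
  obtain ⟨R, hR⟩ := S.disc
  set p := Module.finrank K L with hp
  have hp0 : 0 < p := Module.finrank_pos
  have hpz : (0 : ℤ) < (p : ℤ) := by exact_mod_cast hp0
  have hπ := S.π_ne_zero
  set A : K := S.π ^ p with hA
  have hA0 : A ≠ 0 := pow_ne_zero _ hπ
  obtain ⟨F, hF⟩ := exists_finset_reps (G := Lˣ) (R ×ˢ Finset.range p)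
    (fun (i : K × ℕ) x => ∃ (q : ℤ) (u : K), u ∈ S.OK ∧ u⁻¹ ∈ S.OK ∧
      Algebra.norm K (x : L) = i.1 * S.π ^ i.2 * A ^ q * u)
  refine ⟨F, fun x => ?_⟩
  have hx0 : Algebra.norm K (x : L) ≠ 0 := by
    rw [Ne, Algebra.norm_eq_zero_iff]
    exact x.ne_zero
  obtain ⟨r, hr, k, u, e, hu, hu'⟩ := hR _ hx0
  have hj : ((k % (p : ℤ)).toNat : ℤ) = k % p := Int.toNat_of_nonneg (Int.emod_nonneg k hpz.ne')
  have hjlt : (k % (p : ℤ)).toNat < p := by
    have := Int.emod_lt_of_pos k hpz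
    omega
  have hQ : ∃ (q : ℤ) (u : K), u ∈ S.OK ∧ u⁻¹ ∈ S.OK ∧
      Algebra.norm K (x : L) = r * S.π ^ (k % (p : ℤ)).toNat * A ^ q * u := by
    refine ⟨k / p, u, hu, ?_, ?_⟩
    · rw [S.mem_OK, map_inv₀]; exact hu'
    · have e1 : S.π ^ k = S.π ^ (k % (p : ℤ)).toNat * A ^ (k / (p : ℤ)) := by
        rw [hA, ← zpow_natCast S.π p, ← zpow_mul, ← zpow_natCast S.π (k % (p : ℤ)).toNat, hj,
          ← zpow_add₀ hπ, Int.emod_add_mul_ediv]
      rw [e, e1]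
      ring
  obtain ⟨y, hy, q', u', hu'1, hu'2, ey⟩ :=
    hF (r, (k % (p : ℤ)).toNat) (by rw [Finset.mem_product]; exact ⟨hr, Finset.mem_range.mpr hjlt⟩)
      x hQ
  obtain ⟨q, u, hu1, hu2, ex⟩ := hQ
  simp only at ey
  have hr0 : r ≠ 0 := by
    rintro rfl
    apply hx0
    rw [ex]
    simp
  have hu0 : u ≠ 0 := by
    rintro rfl
    apply hx0
    rw [ex]
    simp
  have hu'0 : u' ≠ 0 := by
    rintro rfl
    have : Algebra.norm K (y : L) ≠ 0 := by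
      rw [Ne, Algebra.norm_eq_zero_iff]
      exact y.ne_zero
    apply this
    rw [ey]
    simp
  set z : Lˣ := y⁻¹ * x * S.πu ^ (-(q - q')) with hz
  have hnz : Algebra.norm K (z : L) = u * u'⁻¹ := by
    rw [hz, Units.val_mul, Units.val_mul, map_mul, map_mul, S.norm_πu_zpow,
      Units.val_inv_eq_inv_val, Algebra.norm_inv, ex, ey, ← hp, ← hA, neg_sub, zpow_sub₀ hA0]
    have h1 : A ^ q ≠ 0 := zpow_ne_zero _ hA0
    have h2 : A ^ q' ≠ 0 := zpow_ne_zero _ hA0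
    have h3 : S.π ^ (k % (p : ℤ)).toNat ≠ 0 := pow_ne_zero _ hπ
    generalize A ^ q = a1 at h1 ⊢
    generalize A ^ q' = a2 at h2 ⊢
    generalize S.π ^ (k % (p : ℤ)).toNat = a3 at h3 ⊢
    field_simp
  refine ⟨y, hy, q - q', z, ?_, ?_, ?_⟩
  · rw [S.mem_O_iff_norm_mem, hnz]
    exact mul_mem hu1 hu'2
  · rw [S.mem_O_iff_norm_mem, Units.val_inv_eq_inv_val, Algebra.norm_inv, hnz, mul_inv, inv_inv]
    exact mul_mem hu2 hu'1
  · rw [hz, mul_assoc (y⁻¹ * x), ← zpow_add, neg_add_cancel, zpow_zero, mul_one]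

end NIBase

namespace NILattice

variable {S : NIBase K L} (Λ : NILattice S)

/-- `V m · π^ℤ` has finite index in `Lˣ`. -/
theorem index_ne_zero (m : ℕ) : (Λ.V m ⊔ Subgroup.zpowers S.πu).index ≠ 0 := by
  obtain ⟨F₁, hF₁⟩ := S.exists_reps_norm
  obtain ⟨F₂, hF₂⟩ := Λ.exists_reps_units m
  refine index_ne_zero_of_reps _ (Finset.image₂ (fun y u => y * u) F₁ F₂) fun x => ?_
  obtain ⟨y, hy, q, w, hw, hw', e⟩ := hF₁ x
  obtain ⟨u, hu, huw⟩ := hF₂ w hw hw'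
  refine ⟨y * u, Finset.mem_image₂_of_mem hy hu, ?_⟩
  have e2 : (y * u)⁻¹ * x = (u⁻¹ * w) * S.πu ^ q := by
    rw [mul_inv_rev, mul_assoc, e, mul_assoc]
  rw [e2]
  exact Subgroup.mul_mem_sup huw (Subgroup.zpow_mem_zpowers _ _)

end NILattice

end Fermat.Agent.F4Loc
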