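import Fermat.Agent.F4.Loc.NormIdx.V

/-!
# F4/Loc/NormIdx: Hilbert 90 inside `V m` (helper91)

`Λ.exists_twist_eq` (**V2**): for a generator `σ` of the Galois group, every `u ∈ 1 + π^(m+1) M`
of norm `1` is `σ c / c` with `c ∈ 1 + π^(m+1) M`.  (Hilbert 90 + a saturation argument in the
lattice `M`; no Hensel.)
-/

set_option autoImplicit false
set_option linter.unusedSectionVars false

open Finset
open scoped Classical

namespace Fermat.Agent.F4Loc

variable {K L : Type} [Field K] [Field L] [Algebra K L] [FiniteDimensional K L] [IsGalois K L]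

namespace NILattice

variable {S : NIBase K L} (Λ : NILattice S)

theorem exists_pow_eq_of_gen (σ : L ≃ₐ[K] L) (hσ : ∀ g, g ∈ Subgroup.zpowers σ)
    (g : L ≃ₐ[K] L) : ∃ k : ℕ, σ ^ k = g := by
  have := (mem_powers_iff_mem_zpowers (x := σ) (y := g)).mpr (hσ g)
  exact Submonoid.mem_powers_iff _ _ |>.mp this

/-- if the coordinates of `σ x - x` and one coordinate of `x` are in `π^n O_K`, then
`x ∈ π^n M`. -/
theorem sat_coord (σ : L ≃ₐ[K] L) (hσ : ∀ g, g ∈ Subgroup.zpowers σ) (n : ℕ) (x : L)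
    (h1 : Λ.b.repr x 1 ∈ S.I n) (h2 : σ x - x ∈ Λ.Mn n) : x ∈ Λ.Mn n := by
  have key : ∀ k : ℕ, Λ.b.repr x (σ ^ k) ∈ S.I n := by
    intro k
    induction k with
    | zero => simpa using h1
    | succ k ih =>
      have h3 := h2 (σ ^ (k + 1))
      rw [map_sub, Finsupp.sub_apply, Λ.repr_gal] at h3
      have e : σ⁻¹ * σ ^ (k + 1) = σ ^ k := by
        rw [pow_succ', inv_mul_cancel_left]
      rw [e] at h3
      have := sub_mem ih h3
      rwa [sub_sub_cancel] at this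
  intro g
  obtain ⟨k, rfl⟩ := exists_pow_eq_of_gen σ hσ g
  exact key k

theorem sat_step (σ : L ≃ₐ[K] L) (hσ : ∀ g, g ∈ Subgroup.zpowers σ) (m : ℕ) (u : L)
    (hu : Λ.P (m + 1) u) (x : L) (hx0 : Λ.b.repr x 1 = 0) (hT : σ x - u * x ∈ Λ.Mn 0) :
    ∀ k : ℕ, S.π ^ k • x ∈ Λ.Mn 0 → x ∈ Λ.Mn 0 := by
  intro k
  induction k with
  | zero =>
    intro h
    simpa using h
  | succ k ih =>
    intro hk
    apply ih
    set x' := S.π ^ (k + 1) • x with hx'
    have h1 : Λ.b.repr x' 1 ∈ S.I 1 := by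
      rw [hx', map_smul, Finsupp.smul_apply, hx0, smul_zero]
      exact zero_mem _
    have h2 : σ x' - x' ∈ Λ.Mn 1 := by
      have e : σ x' - x' = S.π ^ (k + 1) • (σ x - u * x) + (u - 1) * x' := by
        rw [hx', map_smul]
        simp only [Algebra.smul_def]
        ring
      rw [e]
      refine add_mem ?_ ?_
      · have := Λ.smul_mem_Mn (S.pow_mul_mem_I (n := k + 1) (one_mem _)) hT
        rw [mul_one, add_zero] at this
        exact Λ.Mn_anti (Nat.le_add_left 1 k) this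
      · have := Λ.mul_mem_Mn hu hk
        rw [add_zero] at this
        exact Λ.Mn_anti (Nat.le_add_left 1 m) this
    have h3 := Λ.sat_coord σ hσ 1 x' h1 h2
    have e : x' = S.π ^ 1 • (S.π ^ k • x) := by
      rw [hx', smul_smul, ← pow_add, add_comm]
    rw [e] at h3
    exact (Λ.pow_smul_mem_Mn_iff (k := 1) (n := 0)).mp h3

/-- saturation: `x` with vanishing first coordinate and `σ x - u x ∈ M` lies in `M`. -/
theorem sat (σ : L ≃ₐ[K] L) (hσ : ∀ g, g ∈ Subgroup.zpowers σ) (m : ℕ) (u : L)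
    (hu : Λ.P (m + 1) u) (x : L) (hx0 : Λ.b.repr x 1 = 0) (hT : σ x - u * x ∈ Λ.Mn 0) :
    x ∈ Λ.Mn 0 := by
  obtain ⟨k, hk⟩ := Λ.exists_pow_smul_mem x
  exact Λ.sat_step σ hσ m u hu x hx0 hT k hk

theorem twist_inj (σ : L ≃ₐ[K] L) (hσ : ∀ g, g ∈ Subgroup.zpowers σ) (m : ℕ) (u : L)
    (hu : Λ.P (m + 1) u) (x : L) (hx0 : Λ.b.repr x 1 = 0) (hT : σ x = u * x) : x = 0 := by
  apply Λ.eq_zero_of_forall_mem_Mn
  intro n
  set y := (S.π ^ n)⁻¹ • x with hy
  have hπ : S.π ^ n ≠ 0 := pow_ne_zero _ S.π_ne_zero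
  have h1 : Λ.b.repr y 1 = 0 := by
    rw [hy, map_smul, Finsupp.smul_apply, hx0, smul_zero]
  have h2 : σ y - u * y ∈ Λ.Mn 0 := by
    have : σ y - u * y = 0 := by
      rw [hy, map_smul, hT, mul_smul_comm, sub_self]
    rw [this]
    exact zero_mem _
  have h3 := Λ.sat σ hσ m u hu y h1 h2
  have e : x = S.π ^ n • y := by
    rw [hy, smul_smul, mul_inv_cancel₀ hπ, one_smul]
  rw [e]
  have := (Λ.pow_smul_mem_Mn_iff (k := n) (n := 0) (x := y)).mpr h3
  rwa [zero_add] at this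

/-- **V2**: Hilbert 90 inside `1 + π ^ (m + 1) M`. -/
theorem exists_twist_eq (σ : L ≃ₐ[K] L) (hσ : ∀ g, g ∈ Subgroup.zpowers σ) (m : ℕ) (u : L)
    (hu : Λ.P (m + 1) u) (hN : Algebra.norm K u = 1) :
    ∃ c : L, Λ.P (m + 1) c ∧ σ c = u * c := by
  have : IsCyclic (L ≃ₐ[K] L) := ⟨⟨σ, hσ⟩⟩
  have hu0 : u ≠ 0 := Λ.ne_zero_of_P (Nat.le_add_left 1 m) hu
  have hNinv : Algebra.norm K u⁻¹ = 1 := by
    rw [Algebra.norm_inv, hN, inv_one]
  obtain ⟨y, hy⟩ := groupCohomology.exists_div_of_norm_eq_one (K := K) hσ hNinv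
  -- `y₀` spans the kernel of `T = σ - u`
  set y₀ : L := (y : L) with hy₀
  have hy0 : y₀ ≠ 0 := y.ne_zero
  have hσy0 : σ y₀ ≠ 0 := by
    rw [Ne, map_eq_zero]
    exact hy0
  have hTy : σ y₀ = u * y₀ := by
    have h1 : y₀ / σ y₀ = u⁻¹ := hy
    field_simp at h1
    rw [mul_comm]
    exact h1.symm
  have hr₀ : Λ.b.repr y₀ 1 ≠ 0 := fun h => hy0 (Λ.twist_inj σ hσ m u hu y₀ h hTy)
  set ϖ := S.π ^ (m + 1) with hϖ
  have hϖ0 : ϖ ≠ 0 := pow_ne_zero _ S.π_ne_zero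
  set z : L := -(algebraMap K L ϖ⁻¹) with hz
  set μ : L := ϖ⁻¹ • (u - 1) with hμ
  have hμmem : μ ∈ Λ.Mn 0 := by
    have h1 : ϖ • μ ∈ Λ.Mn (0 + (m + 1)) := by
      rw [hμ, smul_smul, mul_inv_cancel₀ hϖ0, one_smul, zero_add]
      exact hu
    exact (Λ.pow_smul_mem_Mn_iff (k := m + 1) (n := 0)).mp h1
  have hTz : σ z - u * z = μ := by
    rw [hz, hμ, map_neg, AlgEquiv.commutes, Algebra.smul_def]
    ring
  set lam : K := Λ.b.repr z 1 / Λ.b.repr y₀ 1 with hlam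
  set γ : L := z - lam • y₀ with hγ
  have hγ0 : Λ.b.repr γ 1 = 0 := by
    rw [hγ, map_sub, map_smul, Finsupp.sub_apply, Finsupp.smul_apply, smul_eq_mul, hlam,
      div_mul_cancel₀ _ hr₀, sub_self]
  have hTγ : σ γ - u * γ = μ := by
    rw [hγ, map_sub, map_smul, hTy, mul_sub, mul_smul_comm, ← hTz]
    ring
  have hγmem : γ ∈ Λ.Mn 0 := Λ.sat σ hσ m u hu γ hγ0 (by rw [hTγ]; exact hμmem)
  refine ⟨1 + ϖ • γ, ?_, ?_⟩
  · rw [P_def, add_sub_cancel_left]
    have := (Λ.pow_smul_mem_Mn_iff (k := m + 1) (n := 0) (x := γ)).mpr hγmem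
    rwa [zero_add] at this
  · have h1 : σ γ = u * γ + μ := by rw [← hTγ]; ring
    rw [map_add, map_one, map_smul, h1, smul_add, hμ, smul_smul, mul_inv_cancel₀ hϖ0, one_smul,
      mul_add, mul_one, mul_smul_comm]
    ring

end NILattice

end Fermat.Agent.F4Loc
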