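import Fermat.Agent.F4.Loc.HerbMul
import Fermat.Agent.F4.Loc.NormIdx.V2
import Fermat.Agent.F4.Loc.NormIdx.Fin

/-!
# F4/Loc/NormIdx: the local norm index theorem (helper91)

`NISetup.norm_index`: for a Galois extension `L/K` of prime degree `p` with an `NIBase`
(Galois-stable valuation ring, pseudo-uniformizer, rank one, discrete, finite residue ring,
Hensel), the norm group `N(Lˣ)` has index `p` in `Kˣ`.

`NISetup.exists_norm_of_close_to_one`: the norm group is open (any Galois degree).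
-/

set_option autoImplicit false
set_option linter.unusedSectionVars false

open Finset
open scoped Classical

namespace Fermat.Agent.F4Loc

section defs

variable (K L : Type*) [Field K] [Field L] [Algebra K L]

/-- `Kˣ → Lˣ`. -/
noncomputable def unitsIncl : Kˣ →* Lˣ := Units.map (algebraMap K L : K →* L)

/-- the norm `Lˣ → Kˣ`. -/
noncomputable def unitsNorm : Lˣ →* Kˣ := Units.map (Algebra.norm K : L →* K)

/-- the norm as an endomorphism of `Lˣ`. -/
noncomputable def normEndo : Lˣ →* Lˣ := (unitsIncl K L).comp (unitsNorm K L)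

variable {K L}

/-- `x ↦ σ x / x`. -/
noncomputable def twistEndo (σ : L ≃ₐ[K] L) : Lˣ →* Lˣ where
  toFun x := Units.map (σ : L →* L) x / x
  map_one' := by simp
  map_mul' x y := by
    rw [map_mul]
    exact mul_div_mul_comm _ _ _ _

@[simp] theorem coe_unitsIncl (a : Kˣ) : ((unitsIncl K L a : Lˣ) : L) = algebraMap K L a := rfl

@[simp] theorem coe_unitsNorm (x : Lˣ) : ((unitsNorm K L x : Kˣ) : K) = Algebra.norm K (x : L) :=
  rfl

@[simp] theorem coe_normEndo (x : Lˣ) :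
    ((normEndo K L x : Lˣ) : L) = algebraMap K L (Algebra.norm K (x : L)) := rfl

@[simp] theorem coe_twistEndo (σ : L ≃ₐ[K] L) (x : Lˣ) :
    ((twistEndo σ x : Lˣ) : L) = σ (x : L) / (x : L) := by
  show ((Units.map (σ : L →* L) x / x : Lˣ) : L) = _
  rw [Units.val_div_eq_div_val]
  rfl

theorem unitsIncl_injective : Function.Injective (unitsIncl K L) :=
  Units.map_injective (algebraMap K L).injective

theorem twistEndo_normEndo (σ : L ≃ₐ[K] L) (x : Lˣ) : twistEndo σ (normEndo K L x) = 1 := by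
  ext
  rw [coe_twistEndo, coe_normEndo, AlgEquiv.commutes, Units.val_one]
  exact div_self (normEndo K L x).ne_zero

theorem normEndo_twistEndo (σ : L ≃ₐ[K] L) (x : Lˣ) :
    normEndo K L (twistEndo σ x) = 1 := by
  have h : normEndo K L (Units.map (σ : L →* L) x) = normEndo K L x := by
    ext
    rw [coe_normEndo, coe_normEndo]
    congr 1
    exact Algebra.norm_eq_of_algEquiv σ (x : L)
  show normEndo K L (Units.map (σ : L →* L) x / x) = 1
  rw [map_div, h, div_self']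

theorem mem_ker_twistEndo {σ : L ≃ₐ[K] L} {x : Lˣ} :
    x ∈ (twistEndo σ).ker ↔ σ (x : L) = (x : L) := by
  rw [MonoidHom.mem_ker, Units.ext_iff, coe_twistEndo, Units.val_one,
    div_eq_one_iff_eq x.ne_zero]

end defs

section open_

variable {K L : Type*} [Field K] [Field L] [Algebra K L] [FiniteDimensional K L] [IsGalois K L]

/-- **Openness of the norm group** (any finite Galois extension in an `NIBase`): every element
of `1 + π ^ n O_K` is a norm, for some `n`. -/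
theorem NISetup.exists_norm_of_close_to_one (S : NISetup K L) :
    ∃ n : ℕ, ∀ a : K, a - 1 ∈ S.I n → ∃ y : L, Algebra.norm K y = a := by
  obtain ⟨Λ⟩ := S.toNIBase.exists_lattice
  obtain ⟨m, hm⟩ := S.exists_pow_mul_mem Λ.t₀⁻¹
  rw [← div_eq_mul_inv] at hm
  refine ⟨(m + 1) + m, fun a ha => ?_⟩
  have hP : Λ.P (m + 1) (algebraMap K L a) := by
    rw [Λ.P_algebraMap]
    obtain ⟨a', ha', e⟩ := S.mem_I_iff_exists.mp ha
    have e2 : (a - 1) / Λ.t₀ = S.π ^ (m + 1) * (S.π ^ m / Λ.t₀ * a') := by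
      rw [e, pow_add]
      have := Λ.t₀_ne_zero
      field_simp
    rw [e2]
    exact S.pow_mul_mem_I (mul_mem hm ha')
  obtain ⟨y, -, hy⟩ := Λ.exists_norm_eq S.hens m hm a hP
  exact ⟨y, hy⟩

end open_

variable {K L : Type} [Field K] [Field L] [Algebra K L] [FiniteDimensional K L] [IsGalois K L]

theorem fixed_of_gen {σ : L ≃ₐ[K] L} (hσ : ∀ g, g ∈ Subgroup.zpowers σ) {x : L}
    (hx : σ x = x) (g : L ≃ₐ[K] L) : g x = x := by
  obtain ⟨k, rfl⟩ := NILattice.exists_pow_eq_of_gen σ hσ g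
  induction k with
  | zero => rfl
  | succ k ih => rw [pow_succ, AlgEquiv.mul_apply, hx, ih]

theorem ker_twistEndo {σ : L ≃ₐ[K] L} (hσ : ∀ g, g ∈ Subgroup.zpowers σ) :
    (twistEndo σ).ker = (⊤ : Subgroup Kˣ).map (unitsIncl K L) := by
  ext x
  rw [mem_ker_twistEndo, Subgroup.mem_map]
  constructor
  · intro hx
    obtain ⟨a, ha⟩ := (IsGalois.mem_range_algebraMap_iff_fixed (F := K) (x : L)).mpr
      (fun g => fixed_of_gen hσ hx g)
    have ha0 : a ≠ 0 := by
      rintro rfl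
      rw [map_zero] at ha
      exact x.ne_zero ha.symm
    exact ⟨Units.mk0 a ha0, Subgroup.mem_top _, Units.ext ha⟩
  · rintro ⟨a, -, rfl⟩
    rw [coe_unitsIncl, AlgEquiv.commutes]

theorem mhq_twist_norm_top {σ : L ≃ₐ[K] L} (hσ : ∀ g, g ∈ Subgroup.zpowers σ) :
    mhq (twistEndo σ) (normEndo K L) ⊤ = (unitsNorm K L).range.index := by
  rw [mhq_top, ker_twistEndo hσ, normEndo, MonoidHom.range_comp,
    Subgroup.relIndex_map_map_of_injective _ _ unitsIncl_injective, Subgroup.relIndex_top_right]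

/-- Hilbert 90. -/
theorem mhq_norm_twist_top {σ : L ≃ₐ[K] L} (hσ : ∀ g, g ∈ Subgroup.zpowers σ) :
    mhq (normEndo K L) (twistEndo σ) ⊤ = 1 := by
  rw [mhq_top, Subgroup.relIndex_eq_one]
  intro x hx
  have : IsCyclic (L ≃ₐ[K] L) := ⟨⟨σ, hσ⟩⟩
  have hN : Algebra.norm K (x : L) = 1 := by
    have := congrArg Units.val (MonoidHom.mem_ker.mp hx)
    rw [coe_normEndo, Units.val_one] at this
    exact (algebraMap K L).injective (by rw [this, map_one])
  have hNinv : Algebra.norm K ((x : L)⁻¹) = 1 := by rw [Algebra.norm_inv, hN, inv_one]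
  obtain ⟨y, hy⟩ := groupCohomology.exists_div_of_norm_eq_one (K := K) hσ hNinv
  refine ⟨y, ?_⟩
  ext
  rw [coe_twistEndo]
  have hy0 : (y : L) ≠ 0 := y.ne_zero
  have hσy0 : σ (y : L) ≠ 0 := by rw [Ne, map_eq_zero]; exact hy0
  have h1 : (y : L) / σ (y : L) = (x : L)⁻¹ := hy
  have hx0 : (x : L) ≠ 0 := x.ne_zero
  field_simp at h1
  field_simp
  exact h1.symm

namespace NILattice

variable {S : NIBase K L} (Λ : NILattice S)

/-- `B = V m · π^ℤ`. -/
noncomputable def B (m : ℕ) : Subgroup Lˣ := Λ.V m ⊔ Subgroup.zpowers S.πu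

theorem mem_B {m : ℕ} {x : Lˣ} : x ∈ Λ.B m ↔ ∃ v ∈ Λ.V m, ∃ k : ℤ, x = v * S.πu ^ k := by
  rw [B, Subgroup.mem_sup]
  constructor
  · rintro ⟨v, hv, w, hw, rfl⟩
    obtain ⟨k, rfl⟩ := Subgroup.mem_zpowers_iff.mp hw
    exact ⟨v, hv, k, rfl⟩
  · rintro ⟨v, hv, k, rfl⟩
    exact ⟨v, hv, _, Subgroup.zpow_mem_zpowers _ _, rfl⟩

theorem twistEndo_πu (σ : L ≃ₐ[K] L) : twistEndo σ S.πu = 1 := by
  ext
  rw [coe_twistEndo, NIBase.coe_πu, AlgEquiv.commutes, Units.val_one]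
  exact div_self S.πL_ne_zero

theorem twistEndo_mem_V {m : ℕ} (σ : L ≃ₐ[K] L) {v : Lˣ} (hv : v ∈ Λ.V m) :
    twistEndo σ v ∈ Λ.V m := by
  rw [mem_V, coe_twistEndo, div_eq_mul_inv]
  exact Λ.P_mul (Λ.P_gal σ hv) (Λ.P_inv (Nat.le_add_left 1 m) hv)

theorem normEndo_mem_V {m : ℕ} {v : Lˣ} (hv : v ∈ Λ.V m) : normEndo K L v ∈ Λ.V m := by
  rw [mem_V, coe_normEndo]
  exact Λ.P_norm hv

theorem map_twist_B_le (m : ℕ) (σ : L ≃ₐ[K] L) : (Λ.B m).map (twistEndo σ) ≤ Λ.B m := by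
  rintro _ ⟨x, hx, rfl⟩
  obtain ⟨v, hv, k, rfl⟩ := Λ.mem_B.mp hx
  rw [map_mul, map_zpow, twistEndo_πu, one_zpow, mul_one]
  exact Subgroup.mem_sup_left (Λ.twistEndo_mem_V σ hv)

theorem map_norm_B_le (m : ℕ) : (Λ.B m).map (normEndo K L) ≤ Λ.B m := by
  rintro _ ⟨x, hx, rfl⟩
  obtain ⟨v, hv, k, rfl⟩ := Λ.mem_B.mp hx
  rw [map_mul, map_zpow]
  refine Subgroup.mul_mem _ (Subgroup.mem_sup_left (Λ.normEndo_mem_V hv)) ?_
  refine Subgroup.zpow_mem _ (Subgroup.mem_sup_right ?_) k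
  have : normEndo K L S.πu = S.πu ^ Module.finrank K L := by
    ext
    rw [coe_normEndo, NIBase.coe_πu, Algebra.norm_algebraMap, map_pow, Units.val_pow_eq_pow_val,
      NIBase.coe_πu]
  rw [this]
  exact Subgroup.pow_mem _ (Subgroup.mem_zpowers _) _

/-- the norm of an element of `V m` is a unit of `O_K`. -/
theorem norm_V_unit {m : ℕ} {v : Lˣ} (hv : v ∈ Λ.V m) :
    Algebra.norm K (v : L) ∈ S.OK ∧ (Algebra.norm K (v : L))⁻¹ ∈ S.OK := by
  have h1 : Λ.P (m + 1) (algebraMap K L (Algebra.norm K (v : L))) := Λ.P_norm hv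
  have h2 := Λ.mem_I_of_P_algebraMap h1
  have h3 := S.I_anti (Nat.le_add_left 1 m) h2
  have e : 1 + (Algebra.norm K (v : L) - 1) = Algebra.norm K (v : L) := by ring
  constructor
  · rw [← e]
    exact add_mem (one_mem _) (S.I_le_OK h3)
  · have := S.inv_one_add_mem h3
    rwa [e] at this

/-- if `N(v) π^(p k)` is a unit then `k = 0`. -/
theorem eq_zero_of_norm_mul_zpow {m : ℕ} {v : Lˣ} (hv : v ∈ Λ.V m) {j : ℤ} {c : K}
    (hc : c ∈ S.OK) (hc' : c⁻¹ ∈ S.OK) (h : Algebra.norm K (v : L) * S.π ^ j = c) : j = 0 := by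
  obtain ⟨h1, h2⟩ := Λ.norm_V_unit hv
  have hN0 : Algebra.norm K (v : L) ≠ 0 := by
    rw [Ne, Algebra.norm_eq_zero_iff]; exact v.ne_zero
  have e : S.π ^ j = c * (Algebra.norm K (v : L))⁻¹ := by
    rw [← h]; field_simp
  apply S.zpow_eq_zero_of_unit
  · rw [e]; exact mul_mem hc h2
  · rw [e, mul_inv, inv_inv]; exact mul_mem hc' h1

theorem mhq_norm_twist_B {σ : L ≃ₐ[K] L} (hσ : ∀ g, g ∈ Subgroup.zpowers σ) (m : ℕ) :
    mhq (normEndo K L) (twistEndo σ) (Λ.B m) = 1 := by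
  rw [mhq_def, Subgroup.relIndex_eq_one]
  rintro x ⟨hxB, hxN⟩
  obtain ⟨v, hv, k, rfl⟩ := Λ.mem_B.mp hxB
  have hN : Algebra.norm K ((v * S.πu ^ k : Lˣ) : L) = 1 := by
    have := congrArg Units.val (MonoidHom.mem_ker.mp hxN)
    rw [coe_normEndo, Units.val_one] at this
    exact (algebraMap K L).injective (by rw [this, map_one])
  rw [Units.val_mul, map_mul, S.norm_πu_zpow, ← zpow_natCast, ← zpow_mul] at hN
  have hk0 := Λ.eq_zero_of_norm_mul_zpow hv (one_mem _) (by rw [inv_one]; exact one_mem _) hN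
  have hp0 : (Module.finrank K L : ℤ) ≠ 0 := by
    exact_mod_cast (Module.finrank_pos (R := K) (M := L)).ne'
  have hk : k = 0 := by
    rcases mul_eq_zero.mp hk0 with h | h
    · exact absurd h hp0
    · exact h
  subst hk
  rw [mul_zero, zpow_zero, mul_one] at hN
  rw [zpow_zero, mul_one]
  obtain ⟨c, hc, hσc⟩ := Λ.exists_twist_eq σ hσ m (v : L) hv hN
  have hc0 : c ≠ 0 := Λ.ne_zero_of_P (Nat.le_add_left 1 m) hc
  refine ⟨Units.mk0 c hc0, Subgroup.mem_sup_left hc, ?_⟩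
  ext
  rw [coe_twistEndo, Units.val_mk0, hσc]
  field_simp

theorem mhq_twist_norm_B {σ : L ≃ₐ[K] L} (hσ : ∀ g, g ∈ Subgroup.zpowers σ)
    (hens : ∀ (d : ℕ) (c : ℕ → K), (∀ i, algebraMap K L (c i) ∈ S.O) → c 1 = 1 →
      (∀ i, 2 ≤ i → algebraMap K L (c i / S.π) ∈ S.O) →
      ∃ x : K, algebraMap K L x ∈ S.O ∧ ∑ i ∈ Finset.range (d + 2), c i * x ^ i = 0)
    (hp : (Module.finrank K L).Prime) (m : ℕ) (hm : S.π ^ m / Λ.t₀ ∈ S.OK) :
    mhq (twistEndo σ) (normEndo K L) (Λ.B m) = Module.finrank K L := by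
  rw [mhq_def]
  refine relIndex_eq_prime hp S.πu ⟨Subgroup.mem_sup_right (Subgroup.mem_zpowers _), ?_⟩ ?_ ?_ ?_
  · exact MonoidHom.mem_ker.mpr (twistEndo_πu σ)
  · -- `π` is not a norm from `B`
    rintro ⟨x, hx, hxπ⟩
    obtain ⟨v, hv, k, rfl⟩ := Λ.mem_B.mp hx
    have h1 := congrArg Units.val hxπ
    rw [coe_normEndo, Units.val_mul, map_mul, S.norm_πu_zpow, NIBase.coe_πu, ← zpow_natCast,
      ← zpow_mul] at h1
    have h2 : Algebra.norm K (v : L) * S.π ^ ((Module.finrank K L : ℤ) * k) = S.π :=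
      (algebraMap K L).injective h1
    have h3 : Algebra.norm K (v : L) * S.π ^ ((Module.finrank K L : ℤ) * k - 1) = 1 := by
      rw [zpow_sub₀ S.π_ne_zero, zpow_one, ← mul_div_assoc, h2]
      exact div_self S.π_ne_zero
    have h4 := Λ.eq_zero_of_norm_mul_zpow hv (one_mem _) (by rw [inv_one]; exact one_mem _) h3
    have h5 : (Module.finrank K L : ℤ) * k = 1 := by linarith
    have h6 := Int.eq_one_or_neg_one_of_mul_eq_one h5
    have h7 : 2 ≤ Module.finrank K L := hp.two_le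
    omega
  · refine ⟨S.πu, Subgroup.mem_sup_right (Subgroup.mem_zpowers _), ?_⟩
    ext
    rw [coe_normEndo, NIBase.coe_πu, Algebra.norm_algebraMap, map_pow, Units.val_pow_eq_pow_val,
      NIBase.coe_πu]
  · rintro x ⟨hxB, hxf⟩
    obtain ⟨v, hv, k, rfl⟩ := Λ.mem_B.mp hxB
    have hvf : v ∈ (twistEndo σ).ker := by
      have hxf' : twistEndo σ (v * S.πu ^ k) = 1 := MonoidHom.mem_ker.mp hxf
      rw [map_mul, map_zpow, twistEndo_πu, one_zpow, mul_one] at hxf'
      exact MonoidHom.mem_ker.mpr hxf'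
    rw [ker_twistEndo hσ] at hvf
    obtain ⟨a, -, ha⟩ := hvf
    have hPa : Λ.P (m + 1) (algebraMap K L (a : K)) := by
      have : (v : L) = algebraMap K L (a : K) := by rw [← ha]; rfl
      rw [← this]
      exact hv
    obtain ⟨y, hy, hya⟩ := Λ.exists_norm_eq hens m hm (a : K) hPa
    have hy0 : y ≠ 0 := Λ.ne_zero_of_P (Nat.le_add_left 1 m) hy
    refine Subgroup.mul_mem_sup ?_ (Subgroup.zpow_mem_zpowers _ _)
    refine ⟨Units.mk0 y hy0, Subgroup.mem_sup_left hy, ?_⟩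
    rw [← ha]
    ext
    rw [coe_normEndo, Units.val_mk0, hya]
    rfl

end NILattice

/-- **Local norm index theorem** (abstract form): for a Galois extension `L/K` of prime degree
in an `NIBase`, the norm group has index `[L : K]`. -/
theorem NISetup.norm_index (S : NISetup K L) (hp : (Module.finrank K L).Prime) :
    (unitsNorm K L).range.index = Module.finrank K L := by
  obtain ⟨Λ⟩ := S.toNIBase.exists_lattice
  have : Fact (Module.finrank K L).Prime := ⟨hp⟩
  have hcard : Nat.card (L ≃ₐ[K] L) = Module.finrank K L := IsGalois.card_aut_eq_finrank K L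
  have hcyc : IsCyclic (L ≃ₐ[K] L) := isCyclic_of_prime_card hcard
  obtain ⟨σ, hσ⟩ := hcyc.exists_generator
  obtain ⟨m, hm⟩ := S.exists_pow_mul_mem Λ.t₀⁻¹
  rw [← div_eq_mul_inv] at hm
  have key := mhq_top_mul_mhq (twistEndo σ) (normEndo K L) (twistEndo_normEndo σ)
    (normEndo_twistEndo σ) (Λ.map_twist_B_le m σ) (Λ.map_norm_B_le m) (Λ.index_ne_zero m)
  rw [mhq_twist_norm_top hσ, Λ.mhq_norm_twist_B hσ m, Λ.mhq_twist_norm_B hσ S.hens hp m hm,
    mhq_norm_twist_top hσ, mul_one, mul_one] at key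
  exact key

end Fermat.Agent.F4Loc
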