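import Fermat.Agent.F4.Loc.NormIdx.Setup

/-!
# F4/Loc/NormIdx: the normal basis lattice (helper91)

`Λ : NILattice S`: a normal basis `b g = g θ` of `L/K` with `θ ∈ O` whose structure constants
are integral, so that `M = ⊕ O_K (g θ)` is a Galois-stable multiplicatively closed lattice in `O`.
`Λ.Mn n = π ^ n M` (coordinatewise).
-/

set_option autoImplicit false
set_option linter.unusedSectionVars false

open Finset
open scoped Classical

namespace Fermat.Agent.F4Loc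

variable {K L : Type*} [Field K] [Field L] [Algebra K L] [FiniteDimensional K L] [IsGalois K L]

namespace NIBase

variable (S : NIBase K L)

theorem gal_mem_iff (g : L ≃ₐ[K] L) {x : L} : g x ∈ S.O ↔ x ∈ S.O := by
  refine ⟨fun h => ?_, S.hO g x⟩
  have := S.hO g⁻¹ _ h
  rwa [AlgEquiv.aut_inv, AlgEquiv.symm_apply_apply] at this

theorem norm_mem_OK {x : L} (hx : x ∈ S.O) : Algebra.norm K x ∈ S.OK := by
  rw [mem_OK, Algebra.norm_eq_prod_automorphisms]
  exact prod_mem fun g _ => S.hO g x hx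

theorem trace_mem_OK {x : L} (hx : x ∈ S.O) : Algebra.trace K L x ∈ S.OK := by
  rw [mem_OK, trace_eq_sum_automorphisms]
  exact sum_mem fun g _ => S.hO g x hx

/-- `x = N(x) * ∏_{g ≠ 1} g x⁻¹`. -/
theorem eq_norm_mul_prod (x : L) (hx : x ≠ 0) :
    x = algebraMap K L (Algebra.norm K x) *
      ∏ g ∈ (univ : Finset (L ≃ₐ[K] L)).erase 1, g x⁻¹ := by
  have h1 : algebraMap K L (Algebra.norm K x⁻¹) =
      x⁻¹ * ∏ g ∈ (univ : Finset (L ≃ₐ[K] L)).erase 1, g x⁻¹ := by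
    rw [Algebra.norm_eq_prod_automorphisms, ← Finset.mul_prod_erase univ _ (mem_univ 1)]
    rfl
  have h2 : algebraMap K L (Algebra.norm K x) * algebraMap K L (Algebra.norm K x⁻¹) = 1 := by
    rw [← map_mul, ← map_mul, mul_inv_cancel₀ hx, map_one, map_one]
  have h3 : ∏ g ∈ (univ : Finset (L ≃ₐ[K] L)).erase 1, g x⁻¹ =
      x * algebraMap K L (Algebra.norm K x⁻¹) := by
    rw [h1, ← mul_assoc, mul_inv_cancel₀ hx, one_mul]
  rw [h3, mul_comm x, ← mul_assoc, h2, one_mul]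

/-- An element of `L` is integral iff its norm is. -/
theorem mem_O_iff_norm_mem {x : L} : x ∈ S.O ↔ Algebra.norm K x ∈ S.OK := by
  refine ⟨S.norm_mem_OK, fun h => ?_⟩
  by_cases hx : x = 0
  · rw [hx]; exact zero_mem _
  rcases S.O.mem_or_inv_mem x with h' | h'
  · exact h'
  · rw [eq_norm_mul_prod (K := K) x hx]
    exact mul_mem h (prod_mem fun g _ => S.hO g _ h')

/-- Rank one for `L`. -/
theorem exists_pow_mul_mem_O (y : L) : ∃ n : ℕ, algebraMap K L (S.π ^ n) * y ∈ S.O := by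
  rcases S.O.mem_or_inv_mem y with h | h
  · exact ⟨0, by simpa using h⟩
  · by_cases hy : y = 0
    · exact ⟨0, by simp [hy, zero_mem]⟩
    set a := Algebra.norm K y⁻¹ with ha
    have ha0 : a ≠ 0 := by
      rw [ha, Ne, Algebra.norm_eq_zero_iff]
      exact inv_ne_zero hy
    obtain ⟨n, hn⟩ := S.exists_pow_mul_mem a⁻¹
    refine ⟨n, ?_⟩
    have e : y = algebraMap K L a⁻¹ * ∏ g ∈ (univ : Finset (L ≃ₐ[K] L)).erase 1, g y⁻¹ := by
      have := eq_norm_mul_prod (K := K) y hy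
      rw [ha, Algebra.norm_inv, inv_inv]
      exact this
    rw [e, ← mul_assoc, ← map_mul]
    exact mul_mem hn (prod_mem fun g _ => S.hO g _ h)

/-- Uniform exponents for a finite family. -/
theorem exists_pow_mul_mem_family {ι : Type*} [Finite ι] (a : ι → K) :
    ∃ n : ℕ, ∀ m, n ≤ m → ∀ i, S.π ^ m * a i ∈ S.OK := by
  classical
  cases nonempty_fintype ι
  choose N hN using fun i => S.exists_pow_mul_mem_of_le (a i)
  refine ⟨univ.sup N, fun m hm i => hN i m ?_⟩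
  exact le_trans (Finset.le_sup (mem_univ i)) hm

end NIBase

/-- A normal basis lattice adapted to the setup. -/
structure NILattice (S : NIBase K L) where
  /-- normal basis generator -/
  θ : L
  /-- the normal basis -/
  b : Module.Basis (L ≃ₐ[K] L) K L
  hb : ∀ g, b g = g θ
  hθ : θ ∈ S.O
  hmul : ∀ g h k, b.repr (b g * b h) k ∈ S.OK

namespace NILattice

variable {S : NIBase K L} (Λ : NILattice S)

/-- `Mn n = π ^ n M`, `M = ⊕ O_K (g θ)`. -/
def Mn (n : ℕ) : AddSubgroup L where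
  carrier := {x | ∀ g, Λ.b.repr x g ∈ S.I n}
  add_mem' := by
    intro x y hx hy g
    rw [map_add, Finsupp.add_apply]
    exact add_mem (hx g) (hy g)
  zero_mem' := by
    intro g
    rw [map_zero, Finsupp.zero_apply]
    exact zero_mem _
  neg_mem' := by
    intro x hx g
    rw [map_neg, Finsupp.neg_apply]
    exact neg_mem (hx g)

theorem mem_Mn {n : ℕ} {x : L} : x ∈ Λ.Mn n ↔ ∀ g, Λ.b.repr x g ∈ S.I n := Iff.rfl

theorem Mn_anti {n m : ℕ} (h : n ≤ m) : Λ.Mn m ≤ Λ.Mn n :=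
  fun _ hx g => S.I_anti h (hx g)

theorem b_mem (g : L ≃ₐ[K] L) : Λ.b g ∈ Λ.Mn 0 := by
  classical
  intro h
  rw [Module.Basis.repr_self, Finsupp.single_apply, S.mem_I_zero]
  split_ifs
  · exact one_mem _
  · exact zero_mem _

theorem smul_mem_Mn {k n : ℕ} {a : K} {x : L} (ha : a ∈ S.I k) (hx : x ∈ Λ.Mn n) :
    a • x ∈ Λ.Mn (k + n) := by
  intro g
  rw [map_smul, Finsupp.smul_apply, smul_eq_mul]
  exact S.mul_mem_I ha (hx g)

theorem smul_mem_Mn' {n : ℕ} {a : K} {x : L} (ha : a ∈ S.OK) (hx : x ∈ Λ.Mn n) :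
    a • x ∈ Λ.Mn n := by
  have := Λ.smul_mem_Mn (S.mem_I_zero.mpr ha) hx
  rwa [zero_add] at this

theorem pow_smul_mem_Mn_iff {k n : ℕ} {x : L} : S.π ^ k • x ∈ Λ.Mn (n + k) ↔ x ∈ Λ.Mn n := by
  simp only [mem_Mn, map_smul, Finsupp.smul_apply, smul_eq_mul, S.pow_mul_mem_I_add]

/-- Galois action on coordinates. -/
theorem repr_gal (σ : L ≃ₐ[K] L) (x : L) (g : L ≃ₐ[K] L) :
    Λ.b.repr (σ x) g = Λ.b.repr x (σ⁻¹ * g) := by
  classical
  have hx : σ x = ∑ h, Λ.b.repr x h • Λ.b (σ * h) := by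
    conv_lhs => rw [← Λ.b.sum_repr x]
    rw [map_sum]
    refine Finset.sum_congr rfl fun h _ => ?_
    rw [map_smul, Λ.hb, Λ.hb, AlgEquiv.mul_apply]
  rw [hx, map_sum, Finsupp.coe_finsetSum, Finset.sum_apply]
  simp only [map_smul, Module.Basis.repr_self, Finsupp.smul_apply, Finsupp.single_apply,
    smul_eq_mul, mul_ite, mul_one, mul_zero]
  rw [Finset.sum_eq_single (σ⁻¹ * g)]
  · simp
  · intro h _ hne
    rw [if_neg]
    intro h'
    apply hne
    rw [← h']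
    simp
  · simp

theorem gal_mem_Mn {n : ℕ} (σ : L ≃ₐ[K] L) {x : L} (hx : x ∈ Λ.Mn n) : σ x ∈ Λ.Mn n := by
  intro g
  rw [Λ.repr_gal]
  exact hx _

/-- `M` is multiplicatively closed. -/
theorem mul_mem_Mn {n m : ℕ} {x y : L} (hx : x ∈ Λ.Mn n) (hy : y ∈ Λ.Mn m) :
    x * y ∈ Λ.Mn (n + m) := by
  have e : x * y = ∑ g, ∑ h, (Λ.b.repr x g * Λ.b.repr y h) • (Λ.b g * Λ.b h) := by
    conv_lhs => rw [← Λ.b.sum_repr x, ← Λ.b.sum_repr y, Finset.sum_mul_sum]
    refine Finset.sum_congr rfl fun g _ => Finset.sum_congr rfl fun h _ => ?_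
    rw [smul_mul_smul_comm]
  intro k
  rw [e, map_sum, Finsupp.coe_finsetSum, Finset.sum_apply]
  refine sum_mem fun g _ => ?_
  rw [map_sum, Finsupp.coe_finsetSum, Finset.sum_apply]
  refine sum_mem fun h _ => ?_
  rw [map_smul, Finsupp.smul_apply, smul_eq_mul]
  exact S.mul_mem_I_right (S.mul_mem_I (hx g) (hy h)) (Λ.hmul g h k)

theorem b_mem_O (g : L ≃ₐ[K] L) : Λ.b g ∈ S.O := by
  rw [Λ.hb]
  exact S.hO g _ Λ.hθ

/-- `π ^ n M ⊆ π ^ n O`. -/
theorem Mn_le_O {n : ℕ} {x : L} (hx : x ∈ Λ.Mn n) :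
    ∃ y ∈ S.O, x = algebraMap K L (S.π ^ n) * y := by
  refine ⟨∑ g, algebraMap K L (Λ.b.repr x g / S.π ^ n) * Λ.b g, ?_, ?_⟩
  · exact sum_mem fun g _ => mul_mem (hx g) (Λ.b_mem_O g)
  · conv_lhs => rw [← Λ.b.sum_repr x]
    rw [Finset.mul_sum]
    refine Finset.sum_congr rfl fun g _ => ?_
    rw [← mul_assoc, ← map_mul, mul_div_cancel₀ _ (pow_ne_zero _ S.π_ne_zero), Algebra.smul_def]

theorem Mn_zero_le_O {x : L} (hx : x ∈ Λ.Mn 0) : x ∈ S.O := by
  obtain ⟨y, hy, rfl⟩ := Λ.Mn_le_O hx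
  simpa using hy

/-- The trace of `θ`. -/
noncomputable def t₀ : K := Algebra.trace K L Λ.θ

theorem algebraMap_t₀ : algebraMap K L Λ.t₀ = ∑ g, Λ.b g := by
  rw [t₀, trace_eq_sum_automorphisms]
  exact Finset.sum_congr rfl fun g _ => (Λ.hb g).symm

theorem repr_algebraMap_t₀ (g : L ≃ₐ[K] L) : Λ.b.repr (algebraMap K L Λ.t₀) g = 1 := by
  classical
  rw [algebraMap_t₀, map_sum, Finsupp.coe_finsetSum, Finset.sum_apply]
  simp only [Module.Basis.repr_self, Finsupp.single_apply]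
  rw [Finset.sum_eq_single g]
  · simp
  · intro h _ hne
    rw [if_neg hne]
  · simp

theorem t₀_ne_zero : Λ.t₀ ≠ 0 := by
  intro h
  have := Λ.repr_algebraMap_t₀ 1
  rw [h, map_zero, map_zero, Finsupp.zero_apply] at this
  exact zero_ne_one this

theorem t₀_mem : Λ.t₀ ∈ S.OK := S.trace_mem_OK Λ.hθ

theorem repr_algebraMap (a : K) (g : L ≃ₐ[K] L) :
    Λ.b.repr (algebraMap K L a) g = a / Λ.t₀ := by
  have e : algebraMap K L a = (a / Λ.t₀) • algebraMap K L Λ.t₀ := by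
    rw [Algebra.smul_def, ← map_mul, div_mul_cancel₀ _ Λ.t₀_ne_zero]
  rw [e, map_smul, Finsupp.smul_apply, Λ.repr_algebraMap_t₀, smul_eq_mul, mul_one]

theorem algebraMap_mem_Mn {n : ℕ} {a : K} : algebraMap K L a ∈ Λ.Mn n ↔ a / Λ.t₀ ∈ S.I n := by
  rw [mem_Mn]
  constructor
  · intro h
    have := h 1
    rwa [Λ.repr_algebraMap] at this
  · intro h g
    rwa [Λ.repr_algebraMap]

/-- `⋂ π ^ n M = 0`. -/
theorem eq_zero_of_forall_mem_Mn {x : L} (h : ∀ n, x ∈ Λ.Mn n) : x = 0 := by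
  rw [← map_eq_zero_iff Λ.b.repr Λ.b.repr.injective]
  ext g
  exact S.eq_zero_of_forall_mem_I fun n => h n g

/-- every element of `L` is moved into `M` by a power of `π`. -/
theorem exists_pow_smul_mem (x : L) : ∃ k : ℕ, S.π ^ k • x ∈ Λ.Mn 0 := by
  obtain ⟨n, hn⟩ := S.exists_pow_mul_mem_family (fun g => Λ.b.repr x g)
  refine ⟨n, fun g => ?_⟩
  rw [map_smul, Finsupp.smul_apply, smul_eq_mul, S.mem_I_zero]
  exact hn n le_rfl g

/-- `O ⊆ π ^ (-c) M` for some `c`. -/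
theorem exists_pow_smul_mem_of_mem_O : ∃ c : ℕ, ∀ x ∈ S.O, S.π ^ c • x ∈ Λ.Mn 0 := by
  classical
  set B := Algebra.traceForm K L
  have hB : B.Nondegenerate := traceForm_nondegenerate K L
  set d := B.dualBasis hB Λ.b with hd
  have hbd : B.dualBasis hB d = Λ.b :=
    LinearMap.BilinForm.dualBasis_dualBasis hB (Algebra.traceForm_isSymm K) Λ.b
  -- `π ^ c d g ∈ O` for all `g`
  have h1 : ∃ c : ℕ, ∀ g, algebraMap K L (S.π ^ c) * d g ∈ S.O := by
    choose N hN using fun g => S.exists_pow_mul_mem_O (d g)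
    refine ⟨univ.sup N, fun g => ?_⟩
    obtain ⟨j, hj⟩ := Nat.exists_eq_add_of_le (Finset.le_sup (f := N) (mem_univ g))
    rw [hj, pow_add, mul_comm (S.π ^ N g), map_mul, mul_assoc]
    exact mul_mem (S.π_pow_mem j) (hN g)
  obtain ⟨c, hc⟩ := h1
  refine ⟨c, fun x hx g => ?_⟩
  rw [map_smul, Finsupp.smul_apply, smul_eq_mul, S.mem_I_zero]
  have e : Λ.b.repr x g = B x (d g) := by
    conv_lhs => rw [← hbd]
    rw [LinearMap.BilinForm.dualBasis_repr_apply]
  rw [e, Algebra.traceForm_apply]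
  have e2 : S.π ^ c * Algebra.trace K L (x * d g) =
      Algebra.trace K L (x * (algebraMap K L (S.π ^ c) * d g)) := by
    rw [← smul_eq_mul, ← map_smul, Algebra.smul_def]
    congr 1
    ring
  rw [e2]
  exact S.trace_mem_OK (mul_mem hx (hc g))

end NILattice

/-- A normal basis lattice exists. -/
theorem NIBase.exists_lattice (S : NIBase K L) : Nonempty (NILattice S) := by
  classical
  set b₀ := IsGalois.normalBasis K L with hb₀def
  set θ₀ := b₀ 1 with hθ₀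
  have hb₀ : ∀ g, b₀ g = g θ₀ := fun g => IsGalois.normalBasis_apply g
  obtain ⟨n₁, hn₁⟩ := S.exists_pow_mul_mem_family
    (fun t : (L ≃ₐ[K] L) × (L ≃ₐ[K] L) × (L ≃ₐ[K] L) => b₀.repr (b₀ t.1 * b₀ t.2.1) t.2.2)
  obtain ⟨n₂, hn₂⟩ := S.exists_pow_mul_mem_O θ₀
  set n := max n₁ n₂ with hn
  have hu : ∀ _ : (L ≃ₐ[K] L), IsUnit (S.π ^ n) := fun _ => (pow_ne_zero _ S.π_ne_zero).isUnit
  refine ⟨{ θ := S.π ^ n • θ₀, b := b₀.isUnitSMul hu, hb := ?_, hθ := ?_, hmul := ?_ }⟩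
  · intro g
    rw [Module.Basis.isUnitSMul_apply, hb₀, map_smul]
  · obtain ⟨j, hj⟩ := Nat.exists_eq_add_of_le (le_max_right n₁ n₂)
    rw [Algebra.smul_def, hn, hj, pow_add, mul_comm (S.π ^ n₂), map_mul, mul_assoc]
    exact mul_mem (S.π_pow_mem j) hn₂
  · intro g h k
    rw [Module.Basis.repr_isUnitSMul, Module.Basis.isUnitSMul_apply,
      Module.Basis.isUnitSMul_apply, smul_mul_smul_comm, map_smul, Finsupp.smul_apply,
      Units.smul_def, smul_eq_mul, smul_eq_mul]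
    have e : ((hu k).unit⁻¹ : Kˣ).val * (S.π ^ n * S.π ^ n * b₀.repr (b₀ g * b₀ h) k) =
        S.π ^ n * b₀.repr (b₀ g * b₀ h) k := by
      rw [Units.val_inv_eq_inv_val, IsUnit.unit_spec]
      field_simp [S.π_ne_zero]
    rw [e]
    exact hn₁ n (le_max_left _ _) (g, h, k)

end Fermat.Agent.F4Loc
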