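import Mathlib

/-!
# F4/Loc/NormIdx: abstract setup for the local norm index theorem (helper91)

`L/K` a finite Galois extension, `O` a Galois-stable valuation ring of `L`, `π ∈ K` a non-unit
of `O` ("pseudo-uniformizer"), with:

* `rk1`  : every element of `K` is moved into `O` by a power of `π` (rank one);
* `disc` : `K^× / (U_K · π^ℤ)` is finite (discreteness), given by finitely many representatives;
* `fin`  : `O_K / π O_K` is finite, given by finitely many representatives;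
* `hens` : Hensel's lemma for polynomials `c₀ + X + c₂ X² + …` with `c_i ∈ π O_K` for `i ≥ 2`
  (sum form).

`NIBase` = everything except `hens`; `NISetup` = `NIBase` + `hens`.

This file: the ideals `I n = π^n O_K`, elementary valuation lemmas.
-/

set_option autoImplicit false

namespace Fermat.Agent.F4Loc

/-- Data for the abstract local norm index theorem, without Hensel's lemma. -/
structure NIBase (K L : Type*) [Field K] [Field L] [Algebra K L] where
  /-- the valuation ring of `L` -/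
  O : ValuationSubring L
  /-- a pseudo-uniformizer in `K` -/
  π : K
  hπO : algebraMap K L π ∈ O
  hπnu : (algebraMap K L π)⁻¹ ∉ O
  hO : ∀ (g : L ≃ₐ[K] L) (x : L), x ∈ O → g x ∈ O
  rk1 : ∀ a : K, ∃ n : ℕ, algebraMap K L (π ^ n * a) ∈ O
  disc : ∃ R : Finset K, ∀ a : K, a ≠ 0 → ∃ r ∈ R, ∃ (k : ℤ) (u : K),
    a = r * π ^ k * u ∧ algebraMap K L u ∈ O ∧ (algebraMap K L u)⁻¹ ∈ O
  fin : ∃ T : Finset K, ∀ a : K, algebraMap K L a ∈ O →
    ∃ s ∈ T, algebraMap K L ((a - s) / π) ∈ O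

/-- Data for the abstract local norm index theorem (with Hensel's lemma, sum form). -/
structure NISetup (K L : Type*) [Field K] [Field L] [Algebra K L] extends NIBase K L where
  hens : ∀ (d : ℕ) (c : ℕ → K), (∀ i, algebraMap K L (c i) ∈ O) → c 1 = 1 →
    (∀ i, 2 ≤ i → algebraMap K L (c i / π) ∈ O) →
    ∃ x : K, algebraMap K L x ∈ O ∧ ∑ i ∈ Finset.range (d + 2), c i * x ^ i = 0

namespace NIBase

variable {K L : Type*} [Field K] [Field L] [Algebra K L] (S : NIBase K L)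

/-- The valuation ring `O ∩ K` of `K`. -/
def OK : ValuationSubring K := S.O.comap (algebraMap K L)

theorem mem_OK {a : K} : a ∈ S.OK ↔ algebraMap K L a ∈ S.O := Iff.rfl

theorem π_mem : S.π ∈ S.OK := S.hπO

theorem π_inv_notMem : S.π⁻¹ ∉ S.OK := by
  rw [mem_OK, map_inv₀]
  exact S.hπnu

theorem π_ne_zero : S.π ≠ 0 := by
  intro h
  apply S.π_inv_notMem
  rw [h, inv_zero]
  exact zero_mem _

theorem πL_ne_zero : algebraMap K L S.π ≠ 0 := by
  rw [Ne, map_eq_zero]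
  exact S.π_ne_zero

theorem π_pow_mem (n : ℕ) : S.π ^ n ∈ S.OK := pow_mem S.π_mem n

/-- A nonzero integer power of `π` is not a unit. -/
theorem zpow_eq_zero_of_unit {k : ℤ} (h1 : S.π ^ k ∈ S.OK) (h2 : (S.π ^ k)⁻¹ ∈ S.OK) : k = 0 := by
  by_contra hk
  have key : ∀ n : ℕ, n ≠ 0 → (S.π ^ n)⁻¹ ∈ S.OK → False := by
    intro n hn h
    apply S.π_inv_notMem
    obtain ⟨j, rfl⟩ := Nat.exists_eq_succ_of_ne_zero hn
    have : S.π⁻¹ = (S.π ^ (j + 1))⁻¹ * S.π ^ j := by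
      rw [pow_succ, mul_inv, mul_comm (S.π ^ j)⁻¹, mul_assoc,
        inv_mul_cancel₀ (pow_ne_zero _ S.π_ne_zero), mul_one]
    rw [this]
    exact mul_mem h (S.π_pow_mem j)
  rcases lt_or_gt_of_ne hk with h | h
  · obtain ⟨n, hn⟩ := Int.exists_eq_neg_ofNat h.le
    have hn0 : n ≠ 0 := by rintro rfl; simp at hn; exact hk hn
    refine key n hn0 ?_
    rw [hn, zpow_neg, zpow_natCast] at h1
    exact h1
  · obtain ⟨n, hn⟩ := Int.eq_ofNat_of_zero_le h.le
    have hn0 : n ≠ 0 := by rintro rfl; simp at hn; exact hk hn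
    refine key n hn0 ?_
    rw [hn, zpow_natCast] at h2
    exact h2

/-- `I n = π ^ n O_K`. -/
def I (n : ℕ) : AddSubgroup K where
  carrier := {a | a / S.π ^ n ∈ S.OK}
  add_mem' := by
    intro a b ha hb
    simp only [Set.mem_ofPred_eq] at *
    rw [add_div]
    exact add_mem ha hb
  zero_mem' := by
    simp only [Set.mem_ofPred_eq, zero_div]
    exact zero_mem _
  neg_mem' := by
    intro a ha
    simp only [Set.mem_ofPred_eq] at *
    rw [neg_div]
    exact neg_mem ha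

theorem mem_I {n : ℕ} {a : K} : a ∈ S.I n ↔ a / S.π ^ n ∈ S.OK := Iff.rfl

theorem mem_I_zero {a : K} : a ∈ S.I 0 ↔ a ∈ S.OK := by
  rw [mem_I, pow_zero, div_one]

theorem mem_I_iff_exists {n : ℕ} {a : K} : a ∈ S.I n ↔ ∃ a' ∈ S.OK, a = S.π ^ n * a' := by
  constructor
  · intro h
    refine ⟨a / S.π ^ n, h, ?_⟩
    rw [mul_div_cancel₀ _ (pow_ne_zero _ S.π_ne_zero)]
  · rintro ⟨a', ha', rfl⟩
    rw [mem_I, mul_div_cancel_left₀ _ (pow_ne_zero _ S.π_ne_zero)]
    exact ha'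

theorem pow_mul_mem_I {n : ℕ} {a : K} (ha : a ∈ S.OK) : S.π ^ n * a ∈ S.I n :=
  S.mem_I_iff_exists.mpr ⟨a, ha, rfl⟩

theorem mul_mem_I {n m : ℕ} {a b : K} (ha : a ∈ S.I n) (hb : b ∈ S.I m) :
    a * b ∈ S.I (n + m) := by
  rw [mem_I] at *
  have : a * b / S.π ^ (n + m) = (a / S.π ^ n) * (b / S.π ^ m) := by
    rw [pow_add, mul_div_mul_comm]
  rw [this]
  exact mul_mem ha hb

theorem I_anti {n m : ℕ} (h : n ≤ m) : S.I m ≤ S.I n := by
  intro a ha
  obtain ⟨j, rfl⟩ := Nat.exists_eq_add_of_le h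
  rw [mem_I] at *
  have : a / S.π ^ n = a / S.π ^ (n + j) * S.π ^ j := by
    rw [pow_add]
    field_simp [S.π_ne_zero]
  rw [this]
  exact mul_mem ha (S.π_pow_mem j)

theorem I_le_OK {n : ℕ} {a : K} (ha : a ∈ S.I n) : a ∈ S.OK :=
  S.mem_I_zero.mp (S.I_anti (Nat.zero_le n) ha)

theorem mul_mem_I_left {n : ℕ} {a b : K} (ha : a ∈ S.OK) (hb : b ∈ S.I n) :
    a * b ∈ S.I n := by
  have := S.mul_mem_I (S.mem_I_zero.mpr ha) hb
  rwa [zero_add] at this

theorem mul_mem_I_right {n : ℕ} {a b : K} (ha : a ∈ S.I n) (hb : b ∈ S.OK) :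
    a * b ∈ S.I n := by
  rw [mul_comm]
  exact S.mul_mem_I_left hb ha

theorem mem_I_succ_of_pow_mul {n : ℕ} {a : K} : S.π * a ∈ S.I (n + 1) ↔ a ∈ S.I n := by
  rw [mem_I, mem_I, pow_succ, mul_comm (S.π ^ n), mul_div_mul_left _ _ S.π_ne_zero]

theorem pow_mul_mem_I_add {n k : ℕ} {a : K} : S.π ^ k * a ∈ S.I (n + k) ↔ a ∈ S.I n := by
  rw [mem_I, mem_I, pow_add, mul_comm (S.π ^ n), mul_div_mul_left _ _ (pow_ne_zero _ S.π_ne_zero)]

/-- Rank one: every element of `K` is moved into `O_K` by a power of `π`. -/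
theorem exists_pow_mul_mem (a : K) : ∃ n : ℕ, S.π ^ n * a ∈ S.OK := S.rk1 a

theorem exists_pow_mul_mem_of_le (a : K) : ∃ n : ℕ, ∀ m, n ≤ m → S.π ^ m * a ∈ S.OK := by
  obtain ⟨n, hn⟩ := S.exists_pow_mul_mem a
  refine ⟨n, fun m hm => ?_⟩
  obtain ⟨j, rfl⟩ := Nat.exists_eq_add_of_le hm
  rw [pow_add, mul_comm (S.π ^ n), mul_assoc]
  exact mul_mem (S.π_pow_mem j) hn

/-- `⋂ I n = 0`. -/
theorem eq_zero_of_forall_mem_I {a : K} (h : ∀ n, a ∈ S.I n) : a = 0 := by
  by_contra ha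
  obtain ⟨n, hn⟩ := S.exists_pow_mul_mem a⁻¹
  apply S.π_inv_notMem
  have h1 := h (n + 1)
  rw [mem_I] at h1
  have : S.π⁻¹ = (a / S.π ^ (n + 1)) * (S.π ^ n * a⁻¹) := by
    rw [pow_succ]
    field_simp [S.π_ne_zero]
  rw [this]
  exact mul_mem h1 hn

theorem valuation_π_lt_one : S.OK.valuation S.π < 1 := by
  refine lt_of_le_of_ne ((S.OK.valuation_le_one_iff _).mpr S.π_mem) ?_
  intro h
  apply S.π_inv_notMem
  rw [← S.OK.valuation_le_one_iff, map_inv₀, h, inv_one]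

theorem valuation_lt_one_of_mem_I {a : K} (ha : a ∈ S.I 1) : S.OK.valuation a < 1 := by
  obtain ⟨a', ha', rfl⟩ := S.mem_I_iff_exists.mp ha
  rw [pow_one, map_mul]
  exact lt_of_le_of_lt (mul_le_of_le_one_right' ((S.OK.valuation_le_one_iff _).mpr ha'))
    S.valuation_π_lt_one

/-- `1 + π O_K` consists of units. -/
theorem inv_one_add_mem {a : K} (ha : a ∈ S.I 1) : (1 + a)⁻¹ ∈ S.OK := by
  rw [← S.OK.valuation_le_one_iff, map_inv₀,
    Valuation.map_one_add_of_lt _ (S.valuation_lt_one_of_mem_I ha), inv_one]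

theorem one_add_ne_zero {a : K} (ha : a ∈ S.I 1) : 1 + a ≠ 0 := by
  intro h
  have := Valuation.map_one_add_of_lt _ (S.valuation_lt_one_of_mem_I ha)
  rw [h, map_zero] at this
  exact zero_ne_one this

/-- The inverse of an element of `1 + π^n O_K` (`n ≥ 1`) is again in `1 + π^n O_K`. -/
theorem inv_one_add_sub_one_mem {n : ℕ} (hn : 1 ≤ n) {a : K} (ha : a ∈ S.I n) :
    (1 + a)⁻¹ - 1 ∈ S.I n := by
  have ha1 : a ∈ S.I 1 := S.I_anti hn ha
  have h0 := S.one_add_ne_zero ha1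
  have : (1 + a)⁻¹ - 1 = -((1 + a)⁻¹ * a) := by
    field_simp
    ring
  rw [this]
  exact neg_mem (S.mul_mem_I_left (S.inv_one_add_mem ha1) ha)

end NIBase

end Fermat.Agent.F4Loc
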