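import Fermat.Agent.F4.Loc.NormIdx.Lattice

/-!
# F4/Loc/NormIdx: the unit groups `V m = 1 + π^(m+1) M` and surjectivity of the norm (helper91)

* `Λ.V m : Subgroup Lˣ`, Galois stable;
* `Λ.exists_norm_eq` (**V1**): if `π ^ m / t₀ ∈ O_K`, every element of `K ∩ (1 + π^(m+1) M)` is the
  norm of an element of `1 + π^(m+1) M` (Hensel).
-/

set_option autoImplicit false
set_option linter.unusedSectionVars false

open Finset Polynomial
open scoped Classical

namespace Fermat.Agent.F4Loc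

variable {K L : Type*} [Field K] [Field L] [Algebra K L] [FiniteDimensional K L] [IsGalois K L]

namespace NILattice

variable {S : NIBase K L} (Λ : NILattice S)

/-- `Λ.P n y` : `y ∈ 1 + π ^ n M`. -/
def P (n : ℕ) (y : L) : Prop := y - 1 ∈ Λ.Mn n

theorem P_def {n : ℕ} {y : L} : Λ.P n y ↔ y - 1 ∈ Λ.Mn n := Iff.rfl

theorem P_one (n : ℕ) : Λ.P n 1 := by
  rw [P_def, sub_self]
  exact zero_mem _

theorem P_mul {n : ℕ} {x y : L} (hx : Λ.P n x) (hy : Λ.P n y) : Λ.P n (x * y) := by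
  rw [P_def] at *
  have e : x * y - 1 = (x - 1) * (y - 1) + (x - 1) + (y - 1) := by ring
  rw [e]
  exact add_mem (add_mem (Λ.Mn_anti (Nat.le_add_right n n) (Λ.mul_mem_Mn hx hy)) hx) hy

theorem P_gal {n : ℕ} (σ : L ≃ₐ[K] L) {x : L} (hx : Λ.P n x) : Λ.P n (σ x) := by
  rw [P_def] at *
  have := Λ.gal_mem_Mn σ hx
  rwa [map_sub, map_one] at this

theorem P_prod {n : ℕ} {ι : Type*} (s : Finset ι) (f : ι → L) (h : ∀ i ∈ s, Λ.P n (f i)) :
    Λ.P n (∏ i ∈ s, f i) := by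
  induction s using Finset.induction_on with
  | empty => simpa using Λ.P_one n
  | insert i s hi ih =>
    rw [Finset.prod_insert hi]
    exact Λ.P_mul (h i (mem_insert_self i s)) (ih fun j hj => h j (mem_insert_of_mem hj))

theorem P_anti {n m : ℕ} (h : n ≤ m) {x : L} (hx : Λ.P m x) : Λ.P n x := Λ.Mn_anti h hx

/-- for `a ∈ K`: `a ∈ 1 + π^n M ↔ (a - 1) / t₀ ∈ π^n O_K`. -/
theorem P_algebraMap {n : ℕ} {a : K} : Λ.P n (algebraMap K L a) ↔ (a - 1) / Λ.t₀ ∈ S.I n := by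
  rw [P_def, ← Λ.algebraMap_mem_Mn, map_sub, map_one]

theorem mem_I_of_P_algebraMap {n : ℕ} {a : K} (h : Λ.P n (algebraMap K L a)) : a - 1 ∈ S.I n := by
  have := S.mul_mem_I_right (Λ.P_algebraMap.mp h) Λ.t₀_mem
  rwa [div_mul_cancel₀ _ Λ.t₀_ne_zero] at this

theorem P_algebraMap_inv {n : ℕ} (hn : 1 ≤ n) {a : K} (h : Λ.P n (algebraMap K L a)) :
    Λ.P n (algebraMap K L a⁻¹) := by
  have h1 := Λ.mem_I_of_P_algebraMap h
  have h2 : (1 + (a - 1))⁻¹ ∈ S.OK := S.inv_one_add_mem (S.I_anti hn h1)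
  have ha : 1 + (a - 1) = a := by ring
  rw [ha] at h2
  have ha0 : a ≠ 0 := by
    have := S.one_add_ne_zero (S.I_anti hn h1)
    rwa [ha] at this
  rw [P_algebraMap] at h ⊢
  have e : (a⁻¹ - 1) / Λ.t₀ = -(a⁻¹ * ((a - 1) / Λ.t₀)) := by
    field_simp
    ring
  rw [e]
  exact neg_mem (S.mul_mem_I_left h2 h)

theorem ne_zero_of_P {n : ℕ} (hn : 1 ≤ n) {x : L} (hx : Λ.P n x) : x ≠ 0 := by
  intro h
  rw [P_def, h, zero_sub] at hx
  obtain ⟨y, hy, e⟩ := Λ.Mn_le_O (Λ.Mn_anti hn (neg_mem hx))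
  rw [neg_neg, pow_one] at e
  apply S.hπnu
  have : (algebraMap K L S.π)⁻¹ = y := inv_eq_of_mul_eq_one_right e.symm
  rw [this]
  exact hy

theorem P_norm {n : ℕ} {x : L} (hx : Λ.P n x) : Λ.P n (algebraMap K L (Algebra.norm K x)) := by
  rw [Algebra.norm_eq_prod_automorphisms]
  exact Λ.P_prod _ _ fun g _ => Λ.P_gal g hx

theorem P_inv {n : ℕ} (hn : 1 ≤ n) {x : L} (hx : Λ.P n x) : Λ.P n x⁻¹ := by
  have hx0 := Λ.ne_zero_of_P hn hx
  have h1 := Λ.P_algebraMap_inv hn (Λ.P_norm hx)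
  have h2 : Λ.P n (∏ g ∈ (univ : Finset (L ≃ₐ[K] L)).erase 1, g x) :=
    Λ.P_prod _ _ fun g _ => Λ.P_gal g hx
  have e : x⁻¹ = algebraMap K L (Algebra.norm K x)⁻¹ *
      ∏ g ∈ (univ : Finset (L ≃ₐ[K] L)).erase 1, g x := by
    have := NIBase.eq_norm_mul_prod (K := K) x⁻¹ (inv_ne_zero hx0)
    rw [inv_inv, Algebra.norm_inv] at this
    exact this
  rw [e]
  exact Λ.P_mul h1 h2

/-- `V m = 1 + π ^ (m + 1) M` as a subgroup of `Lˣ`. -/
def V (m : ℕ) : Subgroup Lˣ where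
  carrier := {u | Λ.P (m + 1) (u : L)}
  mul_mem' := by
    intro u v hu hv
    show Λ.P (m + 1) ((u * v : Lˣ) : L)
    rw [Units.val_mul]
    exact Λ.P_mul hu hv
  one_mem' := Λ.P_one _
  inv_mem' := by
    intro u hu
    show Λ.P (m + 1) ((u⁻¹ : Lˣ) : L)
    rw [Units.val_inv_eq_inv_val]
    exact Λ.P_inv (Nat.le_add_left 1 m) hu

theorem mem_V {m : ℕ} {u : Lˣ} : u ∈ Λ.V m ↔ Λ.P (m + 1) (u : L) := Iff.rfl

/-! ### The norm polynomial -/

/-- `∏_g (1 + (g θ) X)`. -/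
noncomputable def Qpoly : L[X] := ∏ g : L ≃ₐ[K] L, (1 + C (Λ.b g) * X)

theorem Qpoly_map (σ : L ≃ₐ[K] L) : Λ.Qpoly.map (σ : L →+* L) = Λ.Qpoly := by
  rw [Qpoly, Polynomial.map_prod]
  rw [← Fintype.prod_equiv (Equiv.mulLeft σ) (fun g => 1 + C (Λ.b (σ * g)) * X)
    (fun g => 1 + C (Λ.b g) * X) (fun g => rfl)]
  refine Finset.prod_congr rfl fun g _ => ?_
  rw [Polynomial.map_add, Polynomial.map_one, Polynomial.map_mul, Polynomial.map_C,
    Polynomial.map_X, Λ.hb, Λ.hb]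
  rfl

theorem Qpoly_coeff_fixed (σ : L ≃ₐ[K] L) (k : ℕ) : σ (Λ.Qpoly.coeff k) = Λ.Qpoly.coeff k := by
  conv_rhs => rw [← Λ.Qpoly_map σ]
  rw [Polynomial.coeff_map]
  rfl

theorem exists_coeff (k : ℕ) : ∃ e : K, algebraMap K L e = Λ.Qpoly.coeff k := by
  have := (IsGalois.mem_range_algebraMap_iff_fixed (F := K) (Λ.Qpoly.coeff k)).mpr
    (fun σ => Λ.Qpoly_coeff_fixed σ k)
  exact this

/-- the coefficients of the norm polynomial, in `K`. -/
noncomputable def e (k : ℕ) : K := (Λ.exists_coeff k).choose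

theorem algebraMap_e (k : ℕ) : algebraMap K L (Λ.e k) = Λ.Qpoly.coeff k :=
  (Λ.exists_coeff k).choose_spec

theorem Qpoly_coeff_mem (k : ℕ) : Λ.Qpoly.coeff k ∈ S.O := by
  have e : Λ.Qpoly = (∏ g : L ≃ₐ[K] L,
      (1 + C (⟨Λ.b g, Λ.b_mem_O g⟩ : S.O) * X)).map S.O.subtype := by
    rw [Qpoly, Polynomial.map_prod]
    refine Finset.prod_congr rfl fun g _ => ?_
    rw [Polynomial.map_add, Polynomial.map_one, Polynomial.map_mul, Polynomial.map_C,
      Polynomial.map_X]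
    rfl
  rw [e, Polynomial.coeff_map]
  exact Subtype.property _

theorem e_mem (k : ℕ) : Λ.e k ∈ S.OK := by
  rw [S.mem_OK, Λ.algebraMap_e]
  exact Λ.Qpoly_coeff_mem k

theorem Qpoly_coeff_zero_one : ∀ s : Finset (L ≃ₐ[K] L),
    (∏ g ∈ s, (1 + C (Λ.b g) * X)).coeff 0 = 1 ∧
    (∏ g ∈ s, (1 + C (Λ.b g) * X)).coeff 1 = ∑ g ∈ s, Λ.b g := by
  intro s
  induction s using Finset.induction_on with
  | empty => simp [Polynomial.coeff_one]
  | insert i s hi ih =>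
    rw [Finset.prod_insert hi, Finset.sum_insert hi]
    constructor
    · rw [Polynomial.mul_coeff_zero, ih.1]
      simp
    · rw [Polynomial.mul_coeff_one, ih.1, ih.2]
      simp [Polynomial.coeff_one]
      ring

theorem e_zero : Λ.e 0 = 1 := by
  apply (algebraMap K L).injective
  rw [Λ.algebraMap_e, map_one]
  exact (Λ.Qpoly_coeff_zero_one univ).1

theorem e_one : Λ.e 1 = Λ.t₀ := by
  apply (algebraMap K L).injective
  rw [Λ.algebraMap_e, Λ.algebraMap_t₀]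
  exact (Λ.Qpoly_coeff_zero_one univ).2

theorem natDegree_Qpoly_le : Λ.Qpoly.natDegree ≤ Fintype.card (L ≃ₐ[K] L) := by
  refine le_trans (Polynomial.natDegree_prod_le _ _) ?_
  refine le_trans (Finset.sum_le_sum (g := fun _ => 1) fun g _ => ?_) (by simp)
  refine le_trans (Polynomial.natDegree_add_le _ _) ?_
  rw [Polynomial.natDegree_one]
  refine max_le (Nat.zero_le _) ?_
  exact le_trans (Polynomial.natDegree_C_mul_le _ _) Polynomial.natDegree_X_le

/-- `N(1 + y θ) = ∑ e_k y^k`. -/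
theorem norm_one_add (y : K) :
    Algebra.norm K (1 + y • Λ.θ) =
      ∑ k ∈ range (Fintype.card (L ≃ₐ[K] L) + 2), Λ.e k * y ^ k := by
  apply (algebraMap K L).injective
  rw [Algebra.norm_eq_prod_automorphisms, map_sum]
  have h1 : ∏ σ : L ≃ₐ[K] L, σ (1 + y • Λ.θ) = Λ.Qpoly.eval (algebraMap K L y) := by
    rw [Qpoly, Polynomial.eval_prod]
    refine Finset.prod_congr rfl fun g _ => ?_
    rw [map_add, map_one, map_smul, Polynomial.eval_add, Polynomial.eval_one,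
      Polynomial.eval_mul, Polynomial.eval_C, Polynomial.eval_X, Λ.hb, Algebra.smul_def,
      mul_comm]
  rw [h1, Polynomial.eval_eq_sum_range' (n := Fintype.card (L ≃ₐ[K] L) + 2)
    (lt_of_le_of_lt Λ.natDegree_Qpoly_le (by omega))]
  refine Finset.sum_congr rfl fun k _ => ?_
  rw [map_mul, map_pow, Λ.algebraMap_e]

/-- **V1**: surjectivity of the norm on `1 + π ^ (m + 1) M`. -/
theorem exists_norm_eq
    (hens : ∀ (d : ℕ) (c : ℕ → K), (∀ i, algebraMap K L (c i) ∈ S.O) → c 1 = 1 →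
      (∀ i, 2 ≤ i → algebraMap K L (c i / S.π) ∈ S.O) →
      ∃ x : K, algebraMap K L x ∈ S.O ∧ ∑ i ∈ Finset.range (d + 2), c i * x ^ i = 0)
    (m : ℕ) (hm : S.π ^ m / Λ.t₀ ∈ S.OK) (a : K)
    (ha : Λ.P (m + 1) (algebraMap K L a)) :
    ∃ y : L, Λ.P (m + 1) y ∧ Algebra.norm K y = a := by
  set D := S.π ^ (m + 1) * Λ.t₀ with hD
  have hD0 : D ≠ 0 := mul_ne_zero (pow_ne_zero _ S.π_ne_zero) Λ.t₀_ne_zero
  set c : ℕ → K := fun k => (S.π ^ ((m + 1) * k) * Λ.e k - if k = 0 then a else 0) / D with hc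
  have hc0 : c 0 ∈ S.OK := by
    have h1 := Λ.P_algebraMap.mp ha
    rw [S.mem_I] at h1
    have e : c 0 = -((a - 1) / Λ.t₀ / S.π ^ (m + 1)) := by
      simp only [hc, hD, mul_zero, pow_zero, Λ.e_zero, if_true]
      field_simp
      ring
    rw [e]
    exact neg_mem h1
  have hc1 : c 1 = 1 := by
    simp only [hc, hD, mul_one, Λ.e_one, one_ne_zero, if_false, sub_zero]
    exact div_self hD0
  have hc2 : ∀ k, 2 ≤ k → c k / S.π ∈ S.OK := by
    intro k hk
    obtain ⟨j, rfl⟩ := Nat.exists_eq_add_of_le hk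
    have e : c (2 + j) / S.π = (S.π ^ m / Λ.t₀) * (S.π ^ ((m + 1) * j) * Λ.e (2 + j)) := by
      have h20 : (2 + j) ≠ 0 := by omega
      simp only [hc, hD, h20, if_false, sub_zero]
      have : (m + 1) * (2 + j) = (m + 1) + 1 + m + (m + 1) * j := by ring
      rw [this, pow_add, pow_add, pow_succ S.π (m + 1)]
      have hπ := S.π_ne_zero
      have ht := Λ.t₀_ne_zero
      field_simp
    rw [e]
    exact mul_mem hm (mul_mem (S.π_pow_mem _) (Λ.e_mem _))
  have hcmem : ∀ k, algebraMap K L (c k) ∈ S.O := by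
    intro k
    rcases Nat.lt_or_ge k 2 with h | h
    · interval_cases k
      · exact hc0
      · rw [hc1, map_one]; exact one_mem _
    · have := mul_mem S.π_mem (hc2 k h)
      rw [mul_div_cancel₀ _ S.π_ne_zero] at this
      exact this
  obtain ⟨x, hx, hsum⟩ := hens (Fintype.card (L ≃ₐ[K] L)) c hcmem hc1 hc2
  refine ⟨1 + (S.π ^ (m + 1) * x) • Λ.θ, ?_, ?_⟩
  · rw [P_def, add_sub_cancel_left]
    have h1 : Λ.θ = Λ.b 1 := by rw [Λ.hb]; rfl
    rw [h1]
    have := Λ.smul_mem_Mn (S.pow_mul_mem_I (n := m + 1) hx) (Λ.b_mem 1)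
    rwa [add_zero] at this
  · rw [Λ.norm_one_add]
    have h2 : ∑ k ∈ range (Fintype.card (L ≃ₐ[K] L) + 2), c k * x ^ k =
        (∑ k ∈ range (Fintype.card (L ≃ₐ[K] L) + 2), Λ.e k * (S.π ^ (m + 1) * x) ^ k - a) / D := by
      rw [sub_div, Finset.sum_div]
      have h3 : ∀ k ∈ range (Fintype.card (L ≃ₐ[K] L) + 2), c k * x ^ k =
          Λ.e k * (S.π ^ (m + 1) * x) ^ k / D - (if k = 0 then a / D else 0) := by
        intro k _
        simp only [hc]
        split_ifs with h0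
        · subst h0
          simp only [mul_zero, pow_zero, mul_one]
          ring
        · rw [sub_zero, sub_zero, mul_pow, ← pow_mul]
          ring
      rw [Finset.sum_congr rfl h3, Finset.sum_sub_distrib, Finset.sum_ite_eq' ]
      simp
    rw [h2] at hsum
    have := (div_eq_zero_iff.mp hsum).resolve_right hD0
    exact sub_eq_zero.mp this

end NILattice

end Fermat.Agent.F4Loc
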